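import Mathlib.RingTheory.Int.Basic
import Mathlib.Data.ZMod.Basic
import Mathlib.Algebra.Squarefree.Basic
import Mathlib.Data.Nat.Squarefree
import Mathlib.Tactic

/-!
# The Diophantine equations behind curves good outside three

`P³ ± 3 ^ n = ± 3 ^ b` with `3 ∤ P` forces `P = ± 2`, `n = 2`; hence the two systems that come from
the coefficients of `(u + v θ + w θ²)²` have only the evident solutions.
-/

set_option autoImplicit false

namespace FA.GoodThree

theorem nine_not_dvd (P τ : ZMod 9) (h : τ = 1 ∨ τ = -1) : P ^ 2 + τ * P + 1 ≠ 0 := by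
  revert P τ
  decide +kernel

/-- **`P³ + σ 3 ^ n = τ 3 ^ b`** with `3 ∤ P`. -/
theorem cube_add_three_pow {P σ τ : ℤ} {n b : ℕ} (hσ : σ = 1 ∨ σ = -1) (hτ : τ = 1 ∨ τ = -1)
    (hn : 1 ≤ n) (hP : ¬ (3 : ℤ) ∣ P) (h : P ^ 3 + σ * 3 ^ n = τ * 3 ^ b) :
    b = 0 ∧ n = 2 ∧ (P = 2 ∨ P = -2) := by
  obtain ⟨n, rfl⟩ : ∃ k, n = k + 1 := ⟨n - 1, by omega⟩
  rcases b with _ | b
  swap
  · exact absurd (Int.prime_three.dvd_of_dvd_pow (n := 3)
      ⟨τ * 3 ^ b - σ * 3 ^ n, by linear_combination h⟩) hP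
  refine ⟨rfl, ?_⟩
  have hττ : τ * τ = 1 := by rcases hτ with rfl | rfl <;> norm_num
  have hfac : (P - τ) * (P ^ 2 + τ * P + 1) = -σ * 3 ^ (n + 1) := by
    linear_combination h - P * hττ
  have hdvd : (P ^ 2 + τ * P + 1).natAbs ∣ 3 ^ (n + 1) := by
    have : (P ^ 2 + τ * P + 1) ∣ -σ * 3 ^ (n + 1) := ⟨P - τ, by rw [← hfac]; ring⟩
    have h' := Int.natAbs_dvd_natAbs.2 this
    rcases hσ with rfl | rfl <;> simpa [Int.natAbs_mul, Int.natAbs_pow] using h'
  obtain ⟨i, -, hi⟩ := (Nat.dvd_prime_pow Nat.prime_three).1 hdvd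
  have hpos : 0 < P ^ 2 + τ * P + 1 := by rcases hτ with rfl | rfl <;> nlinarith
  have hi1 : i < 2 := by
    by_contra hlt
    obtain ⟨k, rfl⟩ : ∃ k, i = k + 2 := ⟨i - 2, by omega⟩
    have h9 : (9 : ℤ) ∣ P ^ 2 + τ * P + 1 :=
      Int.natAbs_dvd_natAbs.1 ⟨3 ^ k, by rw [hi, pow_add]; show 3 ^ k * 9 = 9 * 3 ^ k; ring⟩
    have := (ZMod.intCast_zmod_eq_zero_iff_dvd (P ^ 2 + τ * P + 1) 9).2 h9
    push_cast at this
    exact nine_not_dvd _ _ (by rcases hτ with rfl | rfl <;> simp) this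
  have hle : P ^ 2 + τ * P + 1 ≤ 3 := by
    have : (P ^ 2 + τ * P + 1).natAbs ≤ 3 := by interval_cases i <;> simp_all
    omega
  have hb : -2 ≤ P ∧ P ≤ 2 := by rcases hτ with rfl | rfl <;> constructor <;> nlinarith
  have hpow : (3 : ℤ) ^ (n + 1) = 9 → n + 1 = 2 := fun h9 => by
    have : (3 : ℕ) ^ (n + 1) = 3 ^ 2 := by exact_mod_cast h9
    exact Nat.pow_right_injective (le_refl 2 |>.trans (by norm_num)) this
  have h3 : (3 : ℤ) ∣ 3 ^ (n + 1) := dvd_pow_self _ n.succ_ne_zero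
  have hT : (0 : ℤ) < 3 ^ (n + 1) := by positivity
  obtain ⟨hb1, hb2⟩ := hb
  suffices key : (3 : ℤ) ^ (n + 1) = 9 ∧ (P = 2 ∨ P = -2) from ⟨hpow key.1, key.2⟩
  generalize (3 : ℤ) ^ (n + 1) = T at h h3 hT ⊢
  rcases hσ with rfl | rfl <;> rcases hτ with rfl | rfl <;> interval_cases P <;>
    norm_num at h hP <;> omega

/-- **`P³ ± 3 = ± 3 ^ b`** forces `P = 0`. -/
theorem cube_add_three {P σ τ : ℤ} {b : ℕ} (hσ : σ = 1 ∨ σ = -1) (hτ : τ = 1 ∨ τ = -1)
    (h : P ^ 3 + σ * 3 = τ * 3 ^ b) : P = 0 := by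
  by_cases hP : (3 : ℤ) ∣ P
  swap
  · exact absurd (cube_add_three_pow (n := 1) hσ hτ le_rfl hP
      (show P ^ 3 + σ * 3 ^ 1 = τ * 3 ^ b by rw [pow_one (3 : ℤ)]; exact h)).2.1 (by norm_num)
  obtain ⟨k, rfl⟩ := hP
  rcases b with _ | _ | b
  · rw [pow_zero] at h
    rcases hσ with rfl | rfl <;> rcases hτ with rfl | rfl <;> ring_nf at h <;> omega
  · have hk : k ^ 3 = 0 := by
      rcases hσ with rfl | rfl <;> rcases hτ with rfl | rfl <;> ring_nf at h <;> omega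
    rw [(pow_eq_zero_iff three_ne_zero).1 hk, mul_zero]
  · have : (9 : ℤ) ∣ σ * 3 := ⟨τ * 3 ^ b - 3 * k ^ 3, by linear_combination h⟩
    rcases hσ with rfl | rfl <;> omega

/-- Divisors of `4 · 3 ^ a` which are odd are powers of three. -/
theorem eq_three_pow {x : ℤ} {a : ℕ} (hx : ¬ (2 : ℤ) ∣ x) (h : x ∣ 4 * 3 ^ a) :
    ∃ (σ : ℤ) (i : ℕ), (σ = 1 ∨ σ = -1) ∧ x = σ * 3 ^ i := by
  have hc : IsCoprime x ((2 : ℤ) ^ 2) := ((Int.prime_two.coprime_iff_not_dvd.2 hx).symm).pow_right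
  have h' : x ∣ (3 : ℤ) ^ a := hc.dvd_of_dvd_mul_left (by norm_num; exact h)
  have hn := Int.natAbs_dvd_natAbs.2 h'
  rw [Int.natAbs_pow] at hn
  obtain ⟨i, -, hi⟩ := (Nat.dvd_prime_pow Nat.prime_three).1 hn
  rcases Int.natAbs_eq x with e | e
  · exact ⟨1, i, Or.inl rfl, by rw [e, hi]; push_cast; ring⟩
  · exact ⟨-1, i, Or.inr rfl, by rw [e, hi]; push_cast; ring⟩

theorem two_not_dvd_of_dvd {x y : ℤ} (h : x ∣ y) (hy : ¬ (2 : ℤ) ∣ y) : ¬ (2 : ℤ) ∣ x :=
  fun h2 => hy (h2.trans h)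

/-- **Factorisation of `u w = - N t²`**, `N` squarefree. -/
theorem factor {N : ℕ} (hN : Squarefree N) {u w t : ℤ} (h0 : u ≠ 0 ∨ w ≠ 0)
    (h : u * w = -(N : ℤ) * t ^ 2) :
    ∃ (A B : ℕ) (G p q : ℤ), A * B = N ∧ u = G * A * p ^ 2 ∧ w = -(G * B * q ^ 2) ∧
      t = G * p * q ∧ IsCoprime ((A : ℤ) * p ^ 2) ((B : ℤ) * q ^ 2) := by
  have hN0 : N ≠ 0 := hN.ne_zero
  obtain ⟨u', w', hc, hu, hw⟩ := Int.exists_gcd_one (m := u) (n := w) (Int.gcd_pos_iff.2 h0)
  have hg : IsCoprime u' w' := Int.isCoprime_iff_gcd_eq_one.2 hc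
  generalize (Int.gcd u w : ℤ) = g at hu hw
  subst hu hw
  have hg0 : g ≠ 0 := by rintro rfl; simp at h0
  obtain ⟨t', rfl⟩ : g ∣ t := by
    have hd : g ^ 2 ∣ (N : ℤ) * t ^ 2 := ⟨-(u' * w'), by linear_combination h⟩
    rcases eq_or_ne t 0 with rfl | ht
    · exact dvd_zero _
    obtain ⟨g₁, t₁, hc, hg₁, ht₁⟩ := Int.exists_gcd_one (m := g) (n := t)
      (Int.gcd_pos_iff.2 (Or.inl hg0))
    have hd0 : ((Int.gcd g t : ℕ) : ℤ) ≠ 0 := by
      exact_mod_cast (Int.gcd_pos_iff.2 (Or.inl hg0)).ne'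
    generalize ((Int.gcd g t : ℕ) : ℤ) = e at hg₁ ht₁ hd0
    subst hg₁ ht₁
    rw [mul_pow, mul_pow, ← mul_assoc] at hd
    have hd'' : g₁ ^ 2 ∣ (N : ℤ) :=
      ((Int.isCoprime_iff_gcd_eq_one.2 hc).pow (m := 2) (n := 2)).dvd_of_dvd_mul_right
        ((mul_dvd_mul_iff_right (pow_ne_zero 2 hd0)).1 hd)
    have hu1 : IsUnit g₁ := by
      rw [Int.isUnit_iff_natAbs_eq]
      have := Int.natAbs_dvd_natAbs.2 hd''
      rw [Int.natAbs_pow, Int.natAbs_natCast, sq] at this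
      exact Nat.isUnit_iff.1 (hN _ this)
    exact mul_dvd_mul_right hu1.dvd _
  have h' : u' * w' = -(N : ℤ) * t' ^ 2 :=
    mul_left_cancel₀ (pow_ne_zero 2 hg0) (by linear_combination h)
  -- split `N`
  set A : ℕ := Int.gcd u' (N : ℤ) with hA
  obtain ⟨B, hB⟩ : A ∣ N := Int.natCast_dvd_natCast.1 (Int.gcd_dvd_right u' (N : ℤ))
  obtain ⟨a, ha⟩ : (A : ℤ) ∣ u' := Int.gcd_dvd_left u' (N : ℤ)
  have hAB : Nat.Coprime A B := (Nat.squarefree_mul_iff.1 (hB ▸ hN)).1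
  have huB : IsCoprime u' (B : ℤ) := by
    rw [Int.isCoprime_iff_gcd_eq_one]
    refine Nat.eq_one_of_dvd_coprimes hAB ?_ (Int.natCast_dvd_natCast.1 (Int.gcd_dvd_right _ _))
    refine Int.dvd_gcd (Int.gcd_dvd_left _ _) ((Int.gcd_dvd_right _ _).trans ?_)
    exact Int.natCast_dvd_natCast.2 (hB ▸ dvd_mul_left B A)
  obtain ⟨b, hb⟩ : (B : ℤ) ∣ w' := huB.symm.dvd_of_dvd_mul_left
    ⟨-((A : ℤ) * t' ^ 2), by rw [h', hB]; push_cast; ring⟩
  have hA0 : (A : ℤ) ≠ 0 := by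
    exact_mod_cast fun e : A = 0 => hN0 (by rw [hB, e, zero_mul])
  have hB0 : (B : ℤ) ≠ 0 := by
    exact_mod_cast fun e : B = 0 => hN0 (by rw [hB, e, mul_zero])
  have hab : a * -b = t' ^ 2 := mul_left_cancel₀ (mul_ne_zero hA0 hB0) (by
    rw [ha, hb, hB] at h'; push_cast at h'; linear_combination -h')
  have hcab : IsCoprime a (-b) := by
    have := hg
    rw [ha, hb] at this
    exact this.of_mul_left_right.of_mul_right_right.neg_right
  obtain ⟨p, hp⟩ := Int.sq_of_isCoprime hcab hab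
  obtain ⟨σ, hσ, hp⟩ : ∃ σ : ℤ, σ * σ = 1 ∧ a = σ * p ^ 2 := by
    rcases hp with e | e
    · exact ⟨1, one_mul 1, by rw [e, one_mul]⟩
    · exact ⟨-1, by norm_num, by rw [e]; ring⟩
  rcases eq_or_ne p 0 with rfl | hp0
  · have ha0 : a = 0 := by rw [hp]; ring
    have hb1 : IsUnit b := by
      rw [ha, ha0, mul_zero, hb] at hg
      exact isUnit_of_mul_isUnit_right (isCoprime_zero_left.1 hg)
    have ht0 : t' = 0 := by
      rw [ha0, zero_mul] at hab
      exact (pow_eq_zero_iff two_ne_zero).1 hab.symm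
    refine ⟨A, B, -(g * b), 0, 1, hB.symm, ?_, ?_, ?_, ?_⟩
    · rw [ha, ha0]; ring
    · rw [hb]; ring
    · rw [ht0]; ring
    · rw [show (A : ℤ) * 0 ^ 2 = 0 by ring, isCoprime_zero_left]
      rw [ha, ha0, mul_zero] at hg
      have := isCoprime_zero_left.1 hg
      rw [hb] at this
      simpa using isUnit_of_mul_isUnit_left this
  · obtain ⟨q, rfl⟩ : p ∣ t' := (Int.pow_dvd_pow_iff two_ne_zero).1
      ⟨σ * -b, by rw [← hab, hp]; ring⟩
    have hbq : σ * -b = q ^ 2 := mul_left_cancel₀ (pow_ne_zero 2 hp0) (by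
      rw [hp] at hab; linear_combination hab)
    refine ⟨A, B, σ * g, p, σ * q, hB.symm, ?_, ?_, ?_, ?_⟩
    · rw [ha, hp]; ring
    · rw [hb]
      linear_combination -(σ ^ 3 * g * (B : ℤ)) * hbq - g * (B : ℤ) * b * (1 + σ * σ) * hσ
    · linear_combination -(g * p * q) * hσ
    · rw [show (A : ℤ) * p ^ 2 = σ * u' by rw [ha, hp]; linear_combination -(A * p ^ 2) * hσ,
        show (B : ℤ) * (σ * q) ^ 2 = -σ * w' by
          rw [hb]; linear_combination (B : ℤ) * q ^ 2 * hσ - (B : ℤ) * hbq]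
      have hu : IsUnit σ := IsUnit.of_mul_eq_one _ hσ
      exact (isCoprime_mul_unit_left_left hu _ _).2
        ((isCoprime_mul_unit_left_right hu.neg _ _).2 hg)

/-- **The system for `Δ = ± 3 ^ (3 m + 1)`**: `u + v θ + w θ²` squares into the plane `1, θ` only
with constant term `0`. -/
theorem system_one {u v w σ : ℤ} {a c : ℕ} (hσ : σ = 1 ∨ σ = -1) (hc : c = 1 ∨ c = 4)
    (h1 : v ^ 2 + 2 * u * w = 0) (h2 : 2 * u * v + 3 * w ^ 2 = σ * c * 3 ^ a) :
    u ^ 2 + 6 * v * w = 0 := by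
  obtain ⟨t, rfl⟩ : (2 : ℤ) ∣ v := Int.prime_two.dvd_of_dvd_pow (n := 2)
    ⟨-(u * w), by linear_combination h1⟩
  have hM : σ * c * 3 ^ a ≠ 0 := by
    rcases hσ with rfl | rfl <;> rcases hc with rfl | rfl <;> norm_num
  have h0 : u ≠ 0 ∨ w ≠ 0 := by
    by_contra! h
    rw [h.1, h.2] at h2
    exact hM (by linear_combination -h2)
  obtain ⟨A, B, G, p, q, hAB, rfl, rfl, rfl, hco⟩ := factor (N := 2) Nat.prime_two.squarefree h0
    (u := u) (w := w) (t := t) (by push_cast; linarith)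
  suffices hp : p = 0 by subst hp; ring
  have hσ' : σ * σ = 1 := by rcases hσ with rfl | rfl <;> norm_num
  have hc4 : (c : ℤ) ∣ 4 := by rcases hc with rfl | rfl <;> norm_num
  have hA2 : A = 2 ∧ B = 1 ∨ A = 1 ∧ B = 2 := by
    have hd := Nat.le_of_dvd two_pos (Dvd.intro B hAB)
    interval_cases A <;> omega
  rcases hA2 with ⟨rfl, rfl⟩ | ⟨rfl, rfl⟩ <;> push_cast at h2 hco
  · -- `G² q (8 p³ + 3 q³)`
    have hq : ¬ (2 : ℤ) ∣ q := fun hd => Int.prime_two.not_isUnit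
      (hco.isUnit_of_dvd' (dvd_mul_right 2 _) (by simpa using dvd_pow hd two_ne_zero))
    have hX : ¬ (2 : ℤ) ∣ 8 * p ^ 3 + 3 * q ^ 3 := fun hd => hq (Int.prime_two.dvd_of_dvd_pow
      (n := 3) ((Int.prime_two.dvd_mul.1 (show (2 : ℤ) ∣ 3 * q ^ 3 by
        have := dvd_sub hd (⟨4 * p ^ 3, by ring⟩ : (2 : ℤ) ∣ 8 * p ^ 3)
        simpa using this)).resolve_left (by norm_num)))
    have h2' : G ^ 2 * q * (8 * p ^ 3 + 3 * q ^ 3) = σ * c * 3 ^ a := by linear_combination h2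
    have hd : ∀ x : ℤ, x ∣ G ^ 2 * q * (8 * p ^ 3 + 3 * q ^ 3) → x ∣ 4 * 3 ^ a := fun x hx => by
      rw [h2'] at hx
      refine hx.trans ?_
      rw [mul_assoc]
      exact (IsUnit.of_mul_eq_one _ hσ').mul_left_dvd.2 (mul_dvd_mul_right hc4 _)
    obtain ⟨ρ, r, hρ, rfl⟩ := eq_three_pow hq (hd q (dvd_mul_of_dvd_left (dvd_mul_left q _) _))
    obtain ⟨τ, b, hτ, hXb⟩ := eq_three_pow hX (hd _ (dvd_mul_left _ _))
    rcases r with _ | r
    · have := cube_add_three (P := 2 * p) hρ hτ (b := b) (by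
        rw [pow_zero, mul_one] at hXb
        rcases hρ with rfl | rfl <;> linear_combination hXb)
      omega
    · have hp3 : ¬ (3 : ℤ) ∣ 2 * p := fun hd3 => by
        have h3p := (Int.prime_three.dvd_mul.1 hd3).resolve_left (by norm_num)
        exact Int.prime_three.not_isUnit (hco.isUnit_of_dvd'
          (dvd_mul_of_dvd_right (dvd_pow h3p two_ne_zero) _)
          (dvd_mul_of_dvd_right (dvd_pow (dvd_mul_of_dvd_right (dvd_pow_self 3 r.succ_ne_zero) ρ)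
            two_ne_zero) _))
      have := (cube_add_three_pow (P := 2 * p) hρ hτ (n := 3 * (r + 1) + 1) (b := b) (by omega) hp3
        (by rcases hρ with rfl | rfl <;> linear_combination hXb)).2.1
      omega
  · -- `4 G² q (p³ + 3 q³)`
    have hp2 : ¬ (2 : ℤ) ∣ p := fun hd => Int.prime_two.not_isUnit
      (hco.isUnit_of_dvd' (by simpa using dvd_pow hd two_ne_zero) (dvd_mul_right 2 _))
    have h2' : 4 * (G ^ 2 * q * (p ^ 3 + 3 * q ^ 3)) = σ * c * 3 ^ a := by linear_combination h2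
    have hodd : ¬ (2 : ℤ) ∣ σ * 3 ^ a := fun hd => (Int.prime_two.dvd_mul.1 hd).elim
      (fun h => by rcases hσ with rfl | rfl <;> norm_num at h)
      fun h => by have := Int.prime_two.dvd_of_dvd_pow h; norm_num at this
    obtain rfl : c = 4 := hc.resolve_left fun hc1 => by
      rw [hc1, Nat.cast_one, mul_one] at h2'
      exact hodd ⟨2 * (G ^ 2 * q * (p ^ 3 + 3 * q ^ 3)), by rw [← h2']; ring⟩
    have h2'' : G ^ 2 * q * (p ^ 3 + 3 * q ^ 3) = σ * 3 ^ a :=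
      mul_left_cancel₀ four_ne_zero (by push_cast at h2'; linear_combination h2')
    have hd : ∀ x : ℤ, x ∣ G ^ 2 * q * (p ^ 3 + 3 * q ^ 3) →
        ¬ (2 : ℤ) ∣ x ∧ x ∣ 4 * 3 ^ a := fun x hx => by
      rw [h2''] at hx
      refine ⟨two_not_dvd_of_dvd hx hodd, dvd_mul_of_dvd_right ?_ 4⟩
      exact (IsUnit.of_mul_eq_one _ hσ').dvd_mul_left.1 hx
    obtain ⟨ρ, r, hρ, rfl⟩ := eq_three_pow (hd q (dvd_mul_of_dvd_left (dvd_mul_left q _) _)).1
      (hd q (dvd_mul_of_dvd_left (dvd_mul_left q _) _)).2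
    obtain ⟨τ, b, hτ, hXb⟩ := eq_three_pow (hd _ (dvd_mul_left _ _)).1 (hd _ (dvd_mul_left _ _)).2
    rcases r with _ | r
    · have := cube_add_three (P := p) hρ hτ (b := b) (by
        rw [pow_zero, mul_one] at hXb
        rcases hρ with rfl | rfl <;> linear_combination hXb)
      exact absurd (this ▸ dvd_zero 2) hp2
    · have hp3 : ¬ (3 : ℤ) ∣ p := fun h3p => Int.prime_three.not_isUnit (hco.isUnit_of_dvd'
          (by simpa using dvd_pow h3p two_ne_zero)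
          (dvd_mul_of_dvd_right (dvd_pow (dvd_mul_of_dvd_right (dvd_pow_self 3 r.succ_ne_zero) ρ)
            two_ne_zero) _))
      have := (cube_add_three_pow (P := p) hρ hτ (n := 3 * (r + 1) + 1) (b := b) (by omega) hp3
        (by rcases hρ with rfl | rfl <;> linear_combination hXb)).2.1
      omega

/-- **The system for `Δ = ± 3 ^ (3 m + 2)`**. -/
theorem system_two {u v w σ : ℤ} {a c : ℕ} (hσ : σ = 1 ∨ σ = -1) (hc : c = 1 ∨ c = 4)
    (h1 : 2 * u * v + 3 * w ^ 2 = 0) (h2 : v ^ 2 + 2 * u * w = σ * c * 3 ^ a) :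
    u ^ 2 + 6 * v * w = 0 ∨
      σ = 1 ∧ ∃ i, a = 2 * i ∧ u ^ 2 + 6 * v * w = 40 * c * 3 ^ a := by
  obtain ⟨t, rfl⟩ : (2 : ℤ) ∣ w := Int.prime_two.dvd_of_dvd_pow (n := 2) (by
    have : (2 : ℤ) ∣ 3 * w ^ 2 := ⟨-(u * v), by linear_combination h1⟩
    exact (Int.prime_two.dvd_mul.1 this).resolve_left (by norm_num))
  have hM : σ * c * 3 ^ a ≠ 0 := by
    rcases hσ with rfl | rfl <;> rcases hc with rfl | rfl <;> norm_num
  have h0 : u ≠ 0 ∨ v ≠ 0 := by
    by_contra! h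
    rw [h.1, h.2] at h2
    exact hM (by linear_combination -h2)
  have hN : Squarefree 6 := by
    rw [show 6 = 2 * 3 by norm_num, Nat.squarefree_mul (by norm_num)]
    exact ⟨Nat.prime_two.squarefree, Nat.prime_three.squarefree⟩
  obtain ⟨A, B, G, p, q, hAB, rfl, rfl, rfl, hco⟩ := factor (N := 6) hN h0
    (u := u) (w := v) (t := t) (by push_cast; linarith)
  have hσ' : σ * σ = 1 := by rcases hσ with rfl | rfl <;> norm_num
  have hc4 : (c : ℤ) ∣ 4 := by rcases hc with rfl | rfl <;> norm_num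
  have hA6 : A = 6 ∧ B = 1 ∨ A = 3 ∧ B = 2 ∨ A = 2 ∧ B = 3 ∨ A = 1 ∧ B = 6 := by
    have hd := Nat.le_of_dvd (by norm_num) (Dvd.intro B hAB)
    interval_cases A <;> omega
  have hd3 : ∀ x : ℤ, x ∣ σ * c * 3 ^ a → x ∣ 4 * 3 ^ a := fun x hx => by
    refine hx.trans ?_
    rw [mul_assoc]
    exact (IsUnit.of_mul_eq_one _ hσ').mul_left_dvd.2 (mul_dvd_mul_right hc4 _)
  rcases hA6 with ⟨rfl, rfl⟩ | ⟨rfl, rfl⟩ | ⟨rfl, rfl⟩ | ⟨rfl, rfl⟩ <;> push_cast at h2 hco
  · -- `G² q (24 p³ + q³)`, so `p = 0`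
    have hq : ¬ (2 : ℤ) ∣ q := fun hd => Int.prime_two.not_isUnit
      (hco.isUnit_of_dvd' (dvd_mul_of_dvd_left (by norm_num) _)
        (by simpa using dvd_pow hd two_ne_zero))
    have hq3 : ¬ (3 : ℤ) ∣ q := fun hd => Int.prime_three.not_isUnit
      (hco.isUnit_of_dvd' (dvd_mul_of_dvd_left (by norm_num) _)
        (by simpa using dvd_pow hd two_ne_zero))
    have h2' : G ^ 2 * q * (24 * p ^ 3 + q ^ 3) = σ * c * 3 ^ a := by linear_combination h2
    obtain ⟨ρ, r, hρ, rfl⟩ := eq_three_pow hq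
      (hd3 q (h2' ▸ dvd_mul_of_dvd_left (dvd_mul_left q _) _))
    obtain rfl : r = 0 := by
      by_contra hr
      exact hq3 (dvd_mul_of_dvd_right (dvd_pow_self 3 hr) ρ)
    have hX : ¬ (2 : ℤ) ∣ 24 * p ^ 3 + (ρ * 3 ^ 0) ^ 3 := fun hd => hq
      (Int.prime_two.dvd_of_dvd_pow (n := 3) (by
        have := dvd_sub hd (⟨12 * p ^ 3, by ring⟩ : (2 : ℤ) ∣ 24 * p ^ 3)
        simpa using this))
    obtain ⟨τ, b, hτ, hXb⟩ := eq_three_pow hX (hd3 _ (h2' ▸ dvd_mul_left _ _))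
    left
    suffices hp : p = 0 by subst hp; ring
    rcases b with _ | b
    · have : p ^ 3 = 0 := by
        rcases hρ with rfl | rfl <;> rcases hτ with rfl | rfl <;> ring_nf at hXb <;> omega
      exact (pow_eq_zero_iff three_ne_zero).1 this
    · exfalso
      rw [pow_succ] at hXb
      rcases hρ with rfl | rfl <;> rcases hτ with rfl | rfl <;> ring_nf at hXb <;> omega
  · -- `4 G² q (q³ + 3 p³)`, `p` odd
    exfalso
    have hp2 : ¬ (2 : ℤ) ∣ p := fun hd => Int.prime_two.not_isUnit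
      (hco.isUnit_of_dvd' (dvd_mul_of_dvd_right (dvd_pow hd two_ne_zero) _) (dvd_mul_right 2 _))
    have hq3 : ¬ (3 : ℤ) ∣ q := fun hd => Int.prime_three.not_isUnit
      (hco.isUnit_of_dvd' (dvd_mul_right 3 _) (dvd_mul_of_dvd_right (dvd_pow hd two_ne_zero) _))
    have h2' : 4 * (G ^ 2 * q * (q ^ 3 + 3 * p ^ 3)) = σ * c * 3 ^ a := by linear_combination h2
    have hodd : ¬ (2 : ℤ) ∣ σ * 3 ^ a := fun hd => (Int.prime_two.dvd_mul.1 hd).elim
      (fun h => by rcases hσ with rfl | rfl <;> norm_num at h)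
      fun h => by have := Int.prime_two.dvd_of_dvd_pow h; norm_num at this
    obtain rfl : c = 4 := hc.resolve_left fun hc1 => by
      rw [hc1, Nat.cast_one, mul_one] at h2'
      exact hodd ⟨2 * (G ^ 2 * q * (q ^ 3 + 3 * p ^ 3)), by rw [← h2']; ring⟩
    have h2'' : G ^ 2 * q * (q ^ 3 + 3 * p ^ 3) = σ * 3 ^ a :=
      mul_left_cancel₀ four_ne_zero (by push_cast at h2'; linear_combination h2')
    have hd : ∀ x : ℤ, x ∣ G ^ 2 * q * (q ^ 3 + 3 * p ^ 3) →
        ¬ (2 : ℤ) ∣ x ∧ x ∣ 4 * 3 ^ a := fun x hx => by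
      rw [h2''] at hx
      refine ⟨two_not_dvd_of_dvd hx hodd, dvd_mul_of_dvd_right ?_ 4⟩
      exact (IsUnit.of_mul_eq_one _ hσ').dvd_mul_left.1 hx
    obtain ⟨ρ, r, hρ, rfl⟩ := eq_three_pow (hd q (dvd_mul_of_dvd_left (dvd_mul_left q _) _)).1
      (hd q (dvd_mul_of_dvd_left (dvd_mul_left q _) _)).2
    obtain rfl : r = 0 := by
      by_contra hr
      exact hq3 (dvd_mul_of_dvd_right (dvd_pow_self 3 hr) ρ)
    obtain ⟨τ, b, hτ, hXb⟩ := eq_three_pow (hd _ (dvd_mul_left _ _)).1 (hd _ (dvd_mul_left _ _)).2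
    rcases b with _ | b
    · have : p ^ 3 = 0 := by
        rcases hρ with rfl | rfl <;> rcases hτ with rfl | rfl <;> ring_nf at hXb <;> omega
      exact hp2 ((pow_eq_zero_iff three_ne_zero).1 this ▸ dvd_zero 2)
    · rw [pow_succ] at hXb
      rcases hρ with rfl | rfl <;> rcases hτ with rfl | rfl <;> ring_nf at hXb <;> omega
  · -- `G² q (8 p³ + 9 q³)`: the sporadic solution
    have hq : ¬ (2 : ℤ) ∣ q := fun hd => Int.prime_two.not_isUnit
      (hco.isUnit_of_dvd' (dvd_mul_right 2 _) (dvd_mul_of_dvd_right (dvd_pow hd two_ne_zero) _))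
    have hp3 : ¬ (3 : ℤ) ∣ 2 * p := fun hd => Int.prime_three.not_isUnit (hco.isUnit_of_dvd'
      (dvd_mul_of_dvd_right (dvd_pow ((Int.prime_three.dvd_mul.1 hd).resolve_left (by norm_num))
        two_ne_zero) _) (dvd_mul_right 3 _))
    have h2' : G ^ 2 * q * (8 * p ^ 3 + 9 * q ^ 3) = σ * c * 3 ^ a := by linear_combination h2
    have hX : ¬ (2 : ℤ) ∣ 8 * p ^ 3 + 9 * q ^ 3 := fun hd => hq (Int.prime_two.dvd_of_dvd_pow
      (n := 3) ((Int.prime_two.dvd_mul.1 (show (2 : ℤ) ∣ 9 * q ^ 3 by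
        have := dvd_sub hd (⟨4 * p ^ 3, by ring⟩ : (2 : ℤ) ∣ 8 * p ^ 3)
        simpa using this)).resolve_left (by norm_num)))
    obtain ⟨ρ, r, hρ, rfl⟩ := eq_three_pow hq
      (hd3 q (h2' ▸ dvd_mul_of_dvd_left (dvd_mul_left q _) _))
    obtain ⟨τ, b, hτ, hXb⟩ := eq_three_pow hX (hd3 _ (h2' ▸ dvd_mul_left _ _))
    obtain ⟨-, hr, hP⟩ := cube_add_three_pow (P := 2 * p) hρ hτ (n := 3 * r + 2) (b := b)
      (by omega) hp3 (by rcases hρ with rfl | rfl <;> linear_combination hXb)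
    obtain rfl : r = 0 := by omega
    rw [pow_zero, mul_one] at h2' ⊢
    have hpρ : p = -ρ := by
      rcases hP with e | e <;> rcases hρ with rfl | rfl
      all_goals first
        | omega
        | (obtain rfl : p = 1 := by omega
           have hXb' : ((17 : ℤ)).natAbs = (τ * 3 ^ b).natAbs := by rw [← hXb]; norm_num
           exfalso
           rw [Int.natAbs_mul, Int.natAbs_pow] at hXb'
           have h17 : 3 ^ b = 17 := by rcases hτ with rfl | rfl <;> simpa using hXb'.symm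
           exact absurd (h17 ▸ dvd_refl (3 ^ b)) fun hd17 => by
             rcases b with _ | b
             · norm_num at h17
             · exact absurd (dvd_pow_self 3 b.succ_ne_zero) (by rw [h17]; norm_num))
        | (obtain rfl : p = -1 := by omega
           have hXb' : ((-17 : ℤ)).natAbs = (τ * 3 ^ b).natAbs := by rw [← hXb]; norm_num
           exfalso
           rw [Int.natAbs_mul, Int.natAbs_pow] at hXb'
           have h17 : 3 ^ b = 17 := by rcases hτ with rfl | rfl <;> simpa using hXb'.symm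
           rcases b with _ | b
           · norm_num at h17
           · exact absurd (dvd_pow_self 3 b.succ_ne_zero) (by rw [h17]; norm_num))
    subst hpρ
    have hρ' : ρ * ρ = 1 := by rcases hρ with rfl | rfl <;> norm_num
    have hG : G ^ 2 = σ * c * 3 ^ a := by
      linear_combination h2' - G ^ 2 * (ρ * ρ + 1) * hρ'
    have hG0 : G ≠ 0 := fun e => hM (by rw [← hG, e]; ring)
    have hpos : 0 < σ * c * 3 ^ a := hG ▸ by positivity
    obtain rfl : σ = 1 := hσ.resolve_right fun e => by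
      rw [e] at hpos
      have h4 : (0 : ℤ) ≤ (c : ℤ) * 3 ^ a := by positivity
      linarith
    right
    refine ⟨rfl, ?_⟩
    obtain ⟨i, hi⟩ : Even a := by
      have hn := congrArg Int.natAbs hG
      rw [Int.natAbs_pow, one_mul, Int.natAbs_mul, Int.natAbs_pow, Int.natAbs_natCast] at hn
      have h3 : Int.natAbs 3 = 3 := rfl
      rw [h3] at hn
      have hn0 : G.natAbs ≠ 0 := Int.natAbs_ne_zero.2 hG0
      have hf := congrArg (fun x : ℕ => x.factorization 3) hn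
      simp only [Nat.factorization_pow, Finsupp.smul_apply, smul_eq_mul] at hf
      have hc3 : c.factorization 3 = 0 := Nat.factorization_eq_zero_of_not_dvd (by
        rcases hc with rfl | rfl <;> norm_num)
      rw [Nat.factorization_mul (by rcases hc with rfl | rfl <;> norm_num) (by positivity),
        Nat.factorization_pow, Finsupp.add_apply, hc3, Finsupp.smul_apply, smul_eq_mul, zero_add,
        Nat.prime_three.factorization_self, mul_one] at hf
      exact ⟨G.natAbs.factorization 3, by omega⟩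
    refine ⟨i, by omega, ?_⟩
    linear_combination 40 * hG + 40 * G ^ 2 * (ρ * ρ + 1) * hρ'
  · -- `4 G² q (p³ + 9 q³)`, `p` prime to `6`
    exfalso
    have hp2 : ¬ (2 : ℤ) ∣ p := fun hd => Int.prime_two.not_isUnit
      (hco.isUnit_of_dvd' (by simpa using dvd_pow hd two_ne_zero)
        (dvd_mul_of_dvd_left (by norm_num) _))
    have hp3 : ¬ (3 : ℤ) ∣ p := fun hd => Int.prime_three.not_isUnit
      (hco.isUnit_of_dvd' (by simpa using dvd_pow hd two_ne_zero)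
        (dvd_mul_of_dvd_left (by norm_num) _))
    have h2' : 4 * (G ^ 2 * q * (p ^ 3 + 9 * q ^ 3)) = σ * c * 3 ^ a := by linear_combination h2
    have hodd : ¬ (2 : ℤ) ∣ σ * 3 ^ a := fun hd => (Int.prime_two.dvd_mul.1 hd).elim
      (fun h => by rcases hσ with rfl | rfl <;> norm_num at h)
      fun h => by have := Int.prime_two.dvd_of_dvd_pow h; norm_num at this
    obtain rfl : c = 4 := hc.resolve_left fun hc1 => by
      rw [hc1, Nat.cast_one, mul_one] at h2'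
      exact hodd ⟨2 * (G ^ 2 * q * (p ^ 3 + 9 * q ^ 3)), by rw [← h2']; ring⟩
    have h2'' : G ^ 2 * q * (p ^ 3 + 9 * q ^ 3) = σ * 3 ^ a :=
      mul_left_cancel₀ four_ne_zero (by push_cast at h2'; linear_combination h2')
    have hd : ∀ x : ℤ, x ∣ G ^ 2 * q * (p ^ 3 + 9 * q ^ 3) →
        ¬ (2 : ℤ) ∣ x ∧ x ∣ 4 * 3 ^ a := fun x hx => by
      rw [h2''] at hx
      refine ⟨two_not_dvd_of_dvd hx hodd, dvd_mul_of_dvd_right ?_ 4⟩
      exact (IsUnit.of_mul_eq_one _ hσ').dvd_mul_left.1 hx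
    obtain ⟨ρ, r, hρ, rfl⟩ := eq_three_pow (hd q (dvd_mul_of_dvd_left (dvd_mul_left q _) _)).1
      (hd q (dvd_mul_of_dvd_left (dvd_mul_left q _) _)).2
    obtain ⟨τ, b, hτ, hXb⟩ := eq_three_pow (hd _ (dvd_mul_left _ _)).1 (hd _ (dvd_mul_left _ _)).2
    obtain ⟨-, -, hP⟩ := cube_add_three_pow (P := p) hρ hτ (n := 3 * r + 2) (b := b) (by omega) hp3
      (by rcases hρ with rfl | rfl <;> linear_combination hXb)
    rcases hP with rfl | rfl <;> norm_num at hp2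

end FA.GoodThree
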