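import Mathlib.NumberTheory.NumberField.ClassNumber
import Mathlib.NumberTheory.NumberField.Units.DirichletTheorem
import Mathlib.NumberTheory.NumberField.Discriminant.Basic
import Mathlib.Algebra.Polynomial.SpecificDegree
import Mathlib.RingTheory.Ideal.Norm.AbsNorm
import Mathlib.Analysis.Real.Pi.Bounds
import Mathlib.Tactic.NormNum.Prime

/-!
# The field of the cube root of three

`K = ℚ(θ)` with `θ³ = 3`: the integers are `ℤ[θ]`, the class number is one, and the units are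
`± ε ^ i` times squares for the unit `ε = θ² - 2`.
-/

set_option autoImplicit false
set_option linter.style.haveILetI false

noncomputable section

open Polynomial NumberField Module

namespace FA.GoodThree

/-- The polynomial of `θ`. -/
def fK : ℚ[X] := X ^ 3 - C 3

theorem fK_monic : fK.Monic := monic_X_pow_sub_C _ three_ne_zero

theorem natDegree_fK : fK.natDegree = 3 := natDegree_X_pow_sub_C

theorem fK_irreducible : Irreducible fK := by
  refine X_pow_sub_C_irreducible_of_prime Nat.prime_three fun b hb => ?_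
  have h : (3 : ℤ) * (b.den : ℤ) ^ 3 = b.num ^ 3 := by
    have : (3 : ℚ) * (b.den : ℚ) ^ 3 = (b.num : ℚ) ^ 3 := by
      rw [← Rat.mul_den_eq_num b, mul_pow, hb]
    exact_mod_cast this
  obtain ⟨c, hc⟩ := Int.prime_three.dvd_of_dvd_pow (a := b.num) (n := 3)
    (Dvd.intro ((b.den : ℤ) ^ 3) (by linear_combination h))
  rw [hc] at h
  have h2 : (3 : ℤ) ∣ (b.den : ℤ) := Int.prime_three.dvd_of_dvd_pow (n := 3)
    ⟨3 * c ^ 3, by linarith⟩
  have h2' : 3 ∣ b.num.natAbs := Int.natCast_dvd.mp ⟨c, hc⟩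
  exact absurd (Nat.dvd_gcd h2' (Int.natCast_dvd_natCast.mp h2)) (by rw [b.reduced]; decide)

instance fact_fK : Fact (Irreducible fK) := ⟨fK_irreducible⟩

/-- The cubic field. -/
abbrev K : Type := AdjoinRoot fK

/-- The cube root of three. -/
abbrev theta : K := AdjoinRoot.root fK

instance charZero_K : CharZero K := charZero_of_injective_algebraMap (algebraMap ℚ K).injective

instance finiteDimensional_K : FiniteDimensional ℚ K :=
  (AdjoinRoot.powerBasis fK_monic.ne_zero).finite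

instance numberField_K : NumberField K := {}

theorem theta_eq : theta ^ 3 = 3 := by
  have h : aeval theta fK = 0 := (AdjoinRoot.aeval_eq fK).trans AdjoinRoot.mk_self
  simpa [fK, sub_eq_zero, map_ofNat] using h

theorem finrank_K : finrank ℚ K = 3 := by
  rw [(AdjoinRoot.powerBasis fK_monic.ne_zero).finrank, AdjoinRoot.powerBasis_dim, natDegree_fK]

/-- The basis `1, θ, θ²`. -/
def basisK : Basis (Fin 3) ℚ K :=
  (AdjoinRoot.powerBasis fK_monic.ne_zero).basis.reindex
    (finCongr (by rw [AdjoinRoot.powerBasis_dim, natDegree_fK]))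

theorem basisK_apply (j : Fin 3) : basisK j = theta ^ (j : ℕ) := by simp [basisK, theta]

/-- The element `x + y θ + z θ²`. -/
def el (x y z : ℚ) : K := (x : K) + (y : K) * theta + (z : K) * theta ^ 2

theorem el_eq_sum (x y z : ℚ) : el x y z = ∑ i, ![x, y, z] i • basisK i := by
  simp [el, Fin.sum_univ_three, basisK_apply, Algebra.smul_def]

theorem el_inj {x y z x' y' z' : ℚ} (h : el x y z = el x' y' z') :
    x = x' ∧ y = y' ∧ z = z' := by
  rw [el_eq_sum, el_eq_sum] at h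
  have e : ∀ c : Fin 3 → ℚ, ⇑(basisK.repr (∑ i, c i • basisK i)) = c := fun c =>
    funext fun i => by rw [Basis.repr_sum_self]
  have := e ![x, y, z]
  rw [h, e] at this
  have h0 := congrFun this 0
  have h1 := congrFun this 1
  have h2 := congrFun this 2
  simp at h0 h1 h2
  exact ⟨h0.symm, h1.symm, h2.symm⟩

theorem exists_el (k : K) : ∃ x y z : ℚ, k = el x y z :=
  ⟨basisK.repr k 0, basisK.repr k 1, basisK.repr k 2, by
    conv_lhs => rw [← basisK.sum_repr k]
    simp [el, Fin.sum_univ_three, basisK_apply, Algebra.smul_def]⟩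

theorem el_mul (x y z x' y' z' : ℚ) : el x y z * el x' y' z' =
    el (x * x' + 3 * (y * z' + z * y')) (x * y' + y * x' + 3 * (z * z'))
      (x * z' + y * y' + z * x') := by
  simp only [el]
  push_cast
  linear_combination ((y : K) * z' + z * y' + z * z' * theta) * theta_eq

theorem leftMul_el (x y z : ℚ) : Algebra.leftMulMatrix basisK (el x y z) =
    !![x, 3 * z, 3 * y; y, x, 3 * z; z, y, x] := by
  ext i j
  rw [Algebra.leftMulMatrix_eq_repr_mul, basisK_apply]
  have hcol : el x y z * theta ^ (j : ℕ) =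
      ∑ k, !![x, 3 * z, 3 * y; y, x, 3 * z; z, y, x] k j • basisK k := by
    fin_cases j <;> simp [el, Fin.sum_univ_three, basisK_apply, Algebra.smul_def]
    · linear_combination (z : K) * theta_eq
    · linear_combination ((z : K) * theta + y) * theta_eq
  rw [hcol, Basis.repr_sum_self]

theorem norm_el (x y z : ℚ) :
    Algebra.norm ℚ (el x y z) = x ^ 3 + 3 * y ^ 3 + 9 * z ^ 3 - 9 * x * y * z := by
  rw [Algebra.norm_eq_matrix_det basisK, leftMul_el, Matrix.det_fin_three]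
  simp
  ring

theorem trace_el (x y z : ℚ) : Algebra.trace ℚ K (el x y z) = 3 * x := by
  rw [Algebra.trace_eq_matrix_trace basisK, leftMul_el, Matrix.trace_fin_three]
  simp
  ring

theorem isIntegral_theta : IsIntegral ℤ theta :=
  ⟨X ^ 3 - C 3, by monicity!, by simp [theta_eq]⟩

/-- The cube root of three as an algebraic integer. -/
def thetaO : 𝓞 K := ⟨theta, isIntegral_theta⟩

@[simp] theorem coe_thetaO : (thetaO : K) = theta := rfl

theorem thetaO_eq : thetaO ^ 3 = 3 :=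
  RingOfIntegers.ext (by simp [theta_eq, map_ofNat])

/-- The integer `a + b θ + c θ²`. -/
def elO (a b c : ℤ) : 𝓞 K := (a : 𝓞 K) + (b : 𝓞 K) * thetaO + (c : 𝓞 K) * thetaO ^ 2

theorem coe_elO (a b c : ℤ) : ((elO a b c : 𝓞 K) : K) = el a b c := by
  simp [elO, el]

theorem norm_elO (a b c : ℤ) :
    Algebra.norm ℤ (elO a b c) = a ^ 3 + 3 * b ^ 3 + 9 * c ^ 3 - 9 * a * b * c := by
  have h := Algebra.coe_norm_int (elO a b c)
  rw [coe_elO, norm_el] at h
  exact_mod_cast h

theorem elO_mul (a b c a' b' c' : ℤ) : elO a b c * elO a' b' c' =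
    elO (a * a' + 3 * (b * c' + c * b')) (a * b' + b * a' + 3 * (c * c'))
      (a * c' + b * b' + c * a') := by
  simp only [elO]
  push_cast
  linear_combination ((b : 𝓞 K) * c' + c * b' + c * c' * thetaO) * thetaO_eq

theorem elO_const (a : ℤ) : (a : 𝓞 K) = elO a 0 0 := by simp [elO]

/-! ### The discriminant, the signature, the primes of small norm -/

theorem abs_discr_le : |discr K| ≤ 243 := by
  classical
  set b : Fin 3 → K := fun j => theta ^ (j : ℕ) with hb
  have hint : ∀ i, IsIntegral ℤ (b i) := fun i => isIntegral_theta.pow _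
  have hd : Algebra.discr ℚ b = -243 := by
    have hM : Algebra.traceMatrix ℚ b = !![3, 0, 0; 0, 0, 9; 0, 9, 0] := by
      ext i j
      have h0 : theta ^ 0 = el 1 0 0 := by simp [el]
      have h1 : theta ^ 1 = el 0 1 0 := by simp [el]
      have h2 : theta ^ 2 = el 0 0 1 := by simp [el]
      have h3 : theta ^ 3 = el 3 0 0 := by simp [el, theta_eq]
      have h4 : theta ^ 4 = el 0 3 0 := by simp [el, pow_succ _ 3, theta_eq]
      have t : ∀ n x y z, theta ^ n = el x y z → Algebra.trace ℚ K (theta ^ n) = 3 * x :=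
        fun n x y z e => by rw [e, trace_el]
      have t0 := t 0 _ _ _ h0
      have t1 := t 1 _ _ _ h1
      rw [pow_zero, mul_one] at t0
      rw [pow_one, mul_zero] at t1
      rw [Algebra.traceMatrix_apply, Algebra.traceForm_apply, hb, ← pow_add]
      fin_cases i <;> fin_cases j <;>
        norm_num [t0, t1, t 2 _ _ _ h2, t 3 _ _ _ h3, t 4 _ _ _ h4]
    rw [Algebra.discr_def, hM, Matrix.det_fin_three]
    simp
    norm_num
  let e : Fin 3 ≃ Free.ChooseBasisIndex ℤ (𝓞 K) := Fintype.equivOfCardEq (by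
    rw [Fintype.card_fin, ← finrank_K, ← Module.finrank_eq_card_basis (integralBasis K)])
  let bas := (integralBasis K).reindex e.symm
  let P₀ : Matrix (Fin 3) (Fin 3) ℤ := fun i j =>
    (RingOfIntegers.basis K).repr (⟨b j, hint j⟩ : 𝓞 K) (e i)
  have hP : bas.toMatrix b = P₀.map (algebraMap ℤ ℚ) := by
    ext i j
    rw [Basis.toMatrix_apply, Basis.repr_reindex_apply, Matrix.map_apply, e.symm_symm]
    exact integralBasis_repr_apply K (⟨b j, hint j⟩ : 𝓞 K) (e i)
  have h := Algebra.discr_of_matrix_vecMul (A := ℚ) (bas : Fin 3 → K) (bas.toMatrix b)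
  rw [Basis.toMatrix_map_vecMul, Basis.coe_reindex, e.symm_symm,
    show (integralBasis K : _ → K) ∘ e = (integralBasis K) ∘ ⇑e.symm.symm from rfl,
    Algebra.discr_reindex, ← coe_discr, hP,
    show P₀.map (algebraMap ℤ ℚ) = (algebraMap ℤ ℚ).mapMatrix P₀ from rfl, ← RingHom.map_det,
    hd] at h
  have h' : (-243 : ℤ) = P₀.det ^ 2 * discr K := by
    rw [eq_intCast] at h
    exact_mod_cast h
  exact Int.le_of_dvd (by norm_num) ((abs_dvd _ _).mpr ⟨-P₀.det ^ 2, by linear_combination -h'⟩)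

theorem nrRealPlaces_le_one : InfinitePlace.nrRealPlaces K ≤ 1 := by
  classical
  rw [InfinitePlace.nrRealPlaces, Fintype.card_le_one_iff]
  rintro ⟨w, hw⟩ ⟨w', hw'⟩
  apply Subtype.ext
  set σ := InfinitePlace.embedding_of_isReal hw with hσ
  set τ := InfinitePlace.embedding_of_isReal hw' with hτ
  have he : σ theta = τ theta := (Odd.pow_inj (show Odd 3 by decide)).mp (by
    rw [← map_pow, ← map_pow, theta_eq, map_ofNat, map_ofNat])
  refine (InfinitePlace.mk_embedding w).symm.trans ((congrArg InfinitePlace.mk ?_).trans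
    (InfinitePlace.mk_embedding w'))
  refine RingHom.ext fun k => ?_
  obtain ⟨x, y, z, rfl⟩ := exists_el k
  have e1 : ((σ theta : ℝ) : ℂ) = w.embedding theta :=
    InfinitePlace.embedding_of_isReal_apply hw theta
  have e2 : ((τ theta : ℝ) : ℂ) = w'.embedding theta :=
    InfinitePlace.embedding_of_isReal_apply hw' theta
  simp only [el, map_add, map_mul, map_pow, map_ratCast, ← e1, ← e2, he]

theorem signature : InfinitePlace.nrRealPlaces K = 1 ∧ InfinitePlace.nrComplexPlaces K = 1 := by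
  have h := InfinitePlace.card_add_two_mul_card_eq_rank K
  have := nrRealPlaces_le_one
  rw [finrank_K] at h
  omega

theorem elO_inj {a b c a' b' c' : ℤ} (h : elO a b c = elO a' b' c') :
    a = a' ∧ b = b' ∧ c = c' := by
  have := congrArg (fun t : 𝓞 K => (t : K)) h
  simp only [coe_elO] at this
  obtain ⟨h1, h2, h3⟩ := el_inj this
  exact ⟨by exact_mod_cast h1, by exact_mod_cast h2, by exact_mod_cast h3⟩

/-- One third of a nonzero residue is no integer. -/
theorem three_dvd_of_dvd {a b c : ℤ} (h : (3 : 𝓞 K) ∣ elO a b c) :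
    (3 : ℤ) ∣ a ∧ (3 : ℤ) ∣ b ∧ (3 : ℤ) ∣ c := by
  have h27 : (27 : ℤ) ∣ a ^ 3 + 3 * b ^ 3 + 9 * c ^ 3 - 9 * a * b * c := by
    rw [← norm_elO]
    have := map_dvd (Algebra.norm ℤ) h
    rwa [show (3 : 𝓞 K) = elO 3 0 0 by simp [elO], norm_elO 3 0 0] at this
  obtain ⟨k, hk⟩ := h27
  obtain ⟨a', rfl⟩ : (3 : ℤ) ∣ a := Int.prime_three.dvd_of_dvd_pow (n := 3)
    ⟨9 * k - b ^ 3 - 3 * c ^ 3 + 3 * a * b * c, by linear_combination hk⟩
  obtain ⟨b', rfl⟩ : (3 : ℤ) ∣ b := Int.prime_three.dvd_of_dvd_pow (n := 3)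
    ⟨3 * k - 3 * a' ^ 3 - c ^ 3 + 3 * a' * b * c, by linarith⟩
  obtain ⟨c', rfl⟩ : (3 : ℤ) ∣ c := Int.prime_three.dvd_of_dvd_pow (n := 3)
    ⟨k - a' ^ 3 - 3 * b' ^ 3 + 3 * a' * b' * c, by linarith⟩
  exact ⟨dvd_mul_right _ _, dvd_mul_right _ _, dvd_mul_right _ _⟩

/-- An element with nine times it in `ℤ[θ]` lies in `ℤ[θ]`. -/
theorem exists_elO (g : 𝓞 K) : ∃ a b c : ℤ, g = elO a b c := by
  obtain ⟨x, y, z, hg⟩ := exists_el (g : K)
  have hint : ∀ i : ℕ, IsIntegral ℤ ((g : K) * theta ^ i) := fun i =>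
    (RingOfIntegers.isIntegral_coe g).mul (isIntegral_theta.pow i)
  have htr : ∀ i : ℕ, ∃ t : ℤ, (t : ℚ) = Algebra.trace ℚ K ((g : K) * theta ^ i) := fun i => by
    obtain ⟨t, ht⟩ := IsIntegrallyClosed.isIntegral_iff.mp
      (Algebra.isIntegral_trace (hint i) :
        IsIntegral ℤ (Algebra.trace ℚ K ((g : K) * theta ^ i)))
    exact ⟨t, by simpa using ht⟩
  obtain ⟨t₀, h0⟩ := htr 0
  obtain ⟨t₁, h1⟩ := htr 1
  obtain ⟨t₂, h2⟩ := htr 2
  rw [hg, show theta ^ 0 = el 1 0 0 by simp [el], el_mul, trace_el] at h0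
  rw [hg, show theta ^ 1 = el 0 1 0 by simp [el], el_mul, trace_el] at h1
  rw [hg, show theta ^ 2 = el 0 0 1 by simp [el], el_mul, trace_el] at h2
  have h9 : (9 : 𝓞 K) * g = elO (3 * t₀) t₂ t₁ := RingOfIntegers.ext (by
    have e : ((elO (3 * t₀) t₂ t₁ : 𝓞 K) : K) = el 9 0 0 * el x y z := by
      rw [coe_elO, el_mul]
      congr 1 <;> push_cast <;> linarith
    rw [e, ← hg]
    simp [el, map_ofNat])
  have step : ∀ (h : 𝓞 K) (a b c : ℤ), (3 : 𝓞 K) * h = elO a b c →
      ∃ a' b' c' : ℤ, h = elO a' b' c' := fun h a b c e => by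
    obtain ⟨⟨a', rfl⟩, ⟨b', rfl⟩, ⟨c', rfl⟩⟩ := three_dvd_of_dvd (a := a) (b := b) (c := c)
      ⟨h, e.symm⟩
    refine ⟨a', b', c', mul_left_cancel₀ (show (3 : 𝓞 K) ≠ 0 by norm_num) (e.trans ?_)⟩
    simp [elO]; ring
  obtain ⟨a, b, c, e⟩ := step (3 * g) _ _ _ (by rw [← mul_assoc, ← h9]; norm_num)
  exact step g a b c e

theorem prime_elO {a b c n : ℤ} (hn : n.natAbs.Prime)
    (h : a ^ 3 + 3 * b ^ 3 + 9 * c ^ 3 - 9 * a * b * c = n) : Prime (elO a b c) := by
  rw [← norm_elO] at h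
  have hπ : elO a b c ≠ 0 := fun e => by
    rw [e, Algebra.norm_zero] at h
    rw [← h] at hn
    exact Nat.not_prime_zero hn
  rw [← Ideal.span_singleton_prime hπ]
  refine Ideal.isPrime_of_irreducible_absNorm ?_
  rw [Ideal.absNorm_span_singleton, h]
  exact hn.prime.irreducible

theorem prime_thetaO : Prime thetaO := by
  have := prime_elO (a := 0) (b := 1) (c := 0) (n := 3) (by norm_num) (by norm_num)
  simpa [elO] using this

theorem prime_two_linear : Prime (elO (-1) 1 0) :=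
  prime_elO (n := 2) (by norm_num) (by norm_num)

theorem two_eq : elO (-1) 1 0 * elO 1 1 1 = 2 := by
  rw [elO_mul]; norm_num [elO]

/-- `θ² + θ + 1` is irreducible. -/
theorem irreducible_two_quadratic : Irreducible (elO 1 1 1) := by
  have hN : Algebra.norm ℤ (elO 1 1 1) = 4 := by rw [norm_elO]; norm_num
  have hu : ¬ IsUnit (elO 1 1 1) := fun hu => by
    have := hu.map (Algebra.norm ℤ)
    rw [hN, Int.isUnit_iff] at this
    omega
  refine ⟨hu, fun p q hpq => ?_⟩
  have hm : (Algebra.norm ℤ p).natAbs * (Algebra.norm ℤ q).natAbs = 4 := by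
    rw [← Int.natAbs_mul, ← map_mul, ← hpq, hN]; rfl
  -- no element of norm `± 2` divides it
  have htwo : ∀ {r : 𝓞 K}, r ∣ elO 1 1 1 → (Algebra.norm ℤ r).natAbs ≠ 2 := fun {r} hr h2 => by
    obtain ⟨a, b, c, rfl⟩ := exists_elO r
    obtain ⟨s, hs⟩ := hr
    obtain ⟨a', b', c', rfl⟩ := exists_elO s
    rw [elO_mul] at hs
    obtain ⟨e1, e2, e3⟩ := elO_inj hs
    rw [norm_elO] at h2
    have key : ∀ a b c a' b' c' : ZMod 2, 1 = a * a' + 3 * (b * c' + c * b') →
        1 = a * b' + b * a' + 3 * (c * c') → 1 = a * c' + b * b' + c * a' →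
        a ^ 3 + 3 * b ^ 3 + 9 * c ^ 3 - 9 * a * b * c = 0 → a = 1 ∧ b = 1 ∧ c = 1 := by
      decide +kernel
    have h' : ((a ^ 3 + 3 * b ^ 3 + 9 * c ^ 3 - 9 * a * b * c : ℤ) : ZMod 2) = 0 :=
      (ZMod.intCast_zmod_eq_zero_iff_dvd _ 2).2 (by omega)
    have q1 := congrArg (Int.cast : ℤ → ZMod 2) e1
    have q2 := congrArg (Int.cast : ℤ → ZMod 2) e2
    have q3 := congrArg (Int.cast : ℤ → ZMod 2) e3
    push_cast at h' q1 q2 q3
    obtain ⟨ha, hb, hc⟩ := key _ _ _ _ _ _ q1 q2 q3 h'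
    have hodd : ∀ {m : ℤ}, (m : ZMod 2) = 1 → ∃ i, m = 2 * i + 1 := fun {m} hm => by
      obtain ⟨i, hi⟩ := (ZMod.intCast_zmod_eq_zero_iff_dvd (m - 1) 2).1 (by push_cast; simp [hm])
      exact ⟨i, by push_cast at hi; omega⟩
    obtain ⟨i, rfl⟩ := hodd ha
    obtain ⟨j, rfl⟩ := hodd hb
    obtain ⟨l, rfl⟩ := hodd hc
    -- then it is a multiple of `θ² + θ + 1`, of norm divisible by `4`
    have e : elO (2 * i + 1) (2 * j + 1) (2 * l + 1) =
        elO 1 1 1 * (1 + elO (-1) 1 0 * elO i j l) := by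
      rw [mul_add, mul_one, ← mul_assoc, mul_comm (elO 1 1 1), two_eq]
      simp [elO]; ring
    have h4 := congrArg (Algebra.norm ℤ) e
    rw [map_mul, hN, norm_elO] at h4
    omega
  have unit_of : ∀ r : 𝓞 K, (Algebra.norm ℤ r).natAbs = 1 → IsUnit r := fun r hr => by
    rw [← Ideal.span_singleton_eq_top, ← Ideal.absNorm_eq_one_iff, Ideal.absNorm_span_singleton,
      hr]
  rcases (Nat.le_of_dvd (by norm_num) ⟨_, hm.symm⟩ : (Algebra.norm ℤ p).natAbs ≤ 4) |>.lt_or_eq
    with hlt | heq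
  · interval_cases h : (Algebra.norm ℤ p).natAbs
    · omega
    · exact Or.inl (unit_of p h)
    · exact absurd h (htwo (Dvd.intro q hpq.symm))
    · omega
  · exact Or.inr (unit_of q (by rw [heq] at hm; omega))

theorem isPrincipalIdealRing_K : IsPrincipalIdealRing (𝓞 K) := by
  refine RingOfIntegers.isPrincipalIdealRing_of_isPrincipal_of_norm_le_of_isPrime fun I hI hN => ?_
  have hlt : (4 / Real.pi) ^ InfinitePlace.nrComplexPlaces K *
      ((Nat.factorial (finrank ℚ K)) / (finrank ℚ K : ℝ) ^ (finrank ℚ K) *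
        √|(discr K : ℝ)|) < 5 := by
    rw [signature.2, finrank_K, pow_one, show Nat.factorial 3 = 6 from rfl]
    have hs : √|(discr K : ℝ)| ≤ 156 / 10 := by
      rw [← Real.sqrt_sq (show (0 : ℝ) ≤ 156 / 10 by norm_num)]
      refine Real.sqrt_le_sqrt ?_
      rw [← Int.cast_abs]
      exact le_trans (Int.cast_le.2 abs_discr_le) (by norm_num)
    have hpi : 4 / Real.pi < 1275 / 1000 := by
      rw [div_lt_div_iff₀ Real.pi_pos (by norm_num)]
      nlinarith [Real.pi_gt_d2]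
    calc _ ≤ (1275 / 1000 : ℝ) * (6 / 3 ^ 3 * (156 / 10)) := by push_cast; gcongr
      _ < 5 := by norm_num
  set n := Ideal.absNorm (I : Ideal (𝓞 K)) with hn
  have hn5 : n < 5 := by
    have : ((n : ℕ) : ℝ) < ((5 : ℕ) : ℝ) := by push_cast; exact hN.trans_lt hlt
    exact_mod_cast this
  have hn0 : n ≠ 0 := by
    rw [hn, Ne, Ideal.absNorm_eq_zero_iff]; exact nonZeroDivisors.coe_ne_zero I
  have hn1 : n ≠ 1 := fun e => hI.ne_top (Ideal.absNorm_eq_one_iff.1 e)
  have hmem : (n : 𝓞 K) ∈ (I : Ideal (𝓞 K)) := Ideal.absNorm_mem _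
  haveI hmax : (I : Ideal (𝓞 K)).IsMaximal :=
    hI.isMaximal (nonZeroDivisors.coe_ne_zero I)
  have hgen : ∀ π : 𝓞 K, π ∈ (I : Ideal (𝓞 K)) → Prime π →
      Submodule.IsPrincipal (I : Ideal (𝓞 K)) := fun π h hπ => by
    have hm : (Ideal.span {π}).IsMaximal :=
      ((Ideal.span_singleton_prime hπ.ne_zero).mpr hπ).isMaximal
        (by simpa [Ideal.span_singleton_eq_bot] using hπ.ne_zero)
    exact ⟨⟨π, (hm.eq_of_le hI.ne_top ((Ideal.span_singleton_le_iff_mem _).mpr h)).symm⟩⟩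
  have h3 : (3 : 𝓞 K) ∈ (I : Ideal (𝓞 K)) → Submodule.IsPrincipal (I : Ideal (𝓞 K)) := fun h =>
    hgen _ (hI.mem_of_pow_mem 3 (by rwa [thetaO_eq])) prime_thetaO
  have h2 : (2 : 𝓞 K) ∈ (I : Ideal (𝓞 K)) → Submodule.IsPrincipal (I : Ideal (𝓞 K)) := fun h => by
    rw [← two_eq] at h
    rcases hI.mem_or_mem h with h | h
    · exact hgen _ h prime_two_linear
    -- the only prime above `θ² + θ + 1` is generated by it
    set f := Ideal.Quotient.mk (I : Ideal (𝓞 K))
    have hf : f thetaO ^ 2 + f thetaO + 1 = 0 := by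
      have := Ideal.Quotient.eq_zero_iff_mem.mpr h
      simp [elO] at this
      linear_combination this
    refine ⟨⟨elO 1 1 1, le_antisymm (fun z hz => ?_)
      ((Ideal.span_singleton_le_iff_mem _).mpr h)⟩⟩
    obtain ⟨a, b, c, rfl⟩ := exists_elO z
    have e2 : (2 : 𝓞 K) ∈ (I : Ideal (𝓞 K)) := two_eq ▸ Ideal.mul_mem_left _ _ h
    have hred : elO a b c = ((b - c : ℤ) : 𝓞 K) * thetaO + ((a - c : ℤ) : 𝓞 K) +
        (c : 𝓞 K) * elO 1 1 1 := by simp [elO]; ring
    have hlin : ∀ m n : ℤ, (m : 𝓞 K) * thetaO + n ∈ (I : Ideal (𝓞 K)) →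
        (2 : ℤ) ∣ m ∧ (2 : ℤ) ∣ n := by
      intro m n hmn
      letI : Field (𝓞 K ⧸ (I : Ideal (𝓞 K))) := Ideal.Quotient.field _
      have h20 : (2 : 𝓞 K ⧸ (I : Ideal (𝓞 K))) = 0 := by
        simpa [map_ofNat] using Ideal.Quotient.eq_zero_iff_mem.mpr e2
      have key : ∀ m : ℤ, (m : 𝓞 K ⧸ (I : Ideal (𝓞 K))) = ((m % 2 : ℤ) : _) := fun m => by
        conv_lhs => rw [← Int.emod_add_mul_ediv m 2]
        push_cast; rw [h20, zero_mul, add_zero]
      have he : (m : 𝓞 K ⧸ (I : Ideal (𝓞 K))) * f thetaO + n = 0 := by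
        simpa [f] using Ideal.Quotient.eq_zero_iff_mem.mpr hmn
      rw [key m, key n] at he
      rcases Int.emod_two_eq_zero_or_one m with hm | hm <;>
        rcases Int.emod_two_eq_zero_or_one n with hn' | hn' <;> rw [hm, hn'] at he <;>
        push_cast at he
      · exact ⟨Int.dvd_of_emod_eq_zero hm, Int.dvd_of_emod_eq_zero hn'⟩
      · exact absurd (by linear_combination he : (1 : 𝓞 K ⧸ (I : Ideal (𝓞 K))) = 0) one_ne_zero
      · exact absurd (by linear_combination hf - (f thetaO + 1) * he :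
          (1 : 𝓞 K ⧸ (I : Ideal (𝓞 K))) = 0) one_ne_zero
      · exact absurd (by linear_combination hf - f thetaO * he :
          (1 : 𝓞 K ⧸ (I : Ideal (𝓞 K))) = 0) one_ne_zero
    obtain ⟨⟨m, hm⟩, ⟨n, hn'⟩⟩ := hlin (b - c) (a - c) (by
      have := sub_mem hz (Ideal.mul_mem_left _ (c : 𝓞 K) h)
      rwa [hred, add_sub_cancel_right] at this)
    rw [Ideal.submodule_span_eq, Ideal.mem_span_singleton, hred, hm, hn']
    refine dvd_add ?_ (dvd_mul_left _ _)
    push_cast
    rw [show (2 : 𝓞 K) * m * thetaO + 2 * n = 2 * (m * thetaO + n) by ring, ← two_eq]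
    exact dvd_mul_of_dvd_left (dvd_mul_left _ _) _
  have case : n = 2 ∨ n = 3 ∨ n = 4 := by omega
  rcases case with e | e | e <;> rw [e, Nat.cast_ofNat] at hmem
  · exact h2 hmem
  · exact h3 hmem
  · exact h2 (hI.mem_of_pow_mem 2 (by norm_num [hmem]))

instance isPrincipalIdealRing_inst : IsPrincipalIdealRing (𝓞 K) := isPrincipalIdealRing_K

theorem rank_K : Units.rank K = 1 := by
  have h := InfinitePlace.card_eq_nrRealPlaces_add_nrComplexPlaces (K := K)
  rw [signature.1, signature.2] at h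
  show Fintype.card (InfinitePlace K) - 1 = 1
  omega

/-! ### Units modulo squares -/

/-- The unit `θ² - 2`. -/
def epsU : (𝓞 K)ˣ :=
  Units.mkOfMulEqOne (elO (-2) 0 1) (elO 4 3 2) (by rw [elO_mul]; simp [elO])

theorem coe_epsU : ((epsU : (𝓞 K)ˣ) : 𝓞 K) = elO (-2) 0 1 := rfl

theorem eps_ne_sq (g : 𝓞 K) : elO (-2) 0 1 ≠ g ^ 2 := by
  obtain ⟨a, b, c, rfl⟩ := exists_elO g
  rw [sq, elO_mul]
  intro h
  obtain ⟨e1, e2, e3⟩ := elO_inj h
  have key : ∀ a b c : ZMod 4, a * a + 3 * (b * c + c * b) = -2 →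
      a * b + b * a + 3 * (c * c) = 0 → a * c + b * b + c * a ≠ 1 := by decide +kernel
  have q1 := congrArg (Int.cast : ℤ → ZMod 4) e1
  have q2 := congrArg (Int.cast : ℤ → ZMod 4) e2
  have q3 := congrArg (Int.cast : ℤ → ZMod 4) e3
  push_cast at q1 q2 q3
  exact key _ _ _ q1.symm q2.symm q3.symm

theorem neg_eps_ne_sq (g : 𝓞 K) : -elO (-2) 0 1 ≠ g ^ 2 := by
  intro h
  have e := congrArg (Algebra.norm ℤ) h
  rw [map_pow, show -elO (-2) 0 1 = elO 2 0 (-1) by simp [elO]; ring, norm_elO] at e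
  nlinarith [sq_nonneg (Algebra.norm ℤ g)]

/-- Every unit of norm `1` is `1` or `ε` times a square. -/
theorem unit_eq (u : (𝓞 K)ˣ) (hu : Algebra.norm ℤ (u : 𝓞 K) = 1) :
    ∃ η : (𝓞 K)ˣ, u = η ^ 2 ∨ u = epsU * η ^ 2 := by
  classical
  have hodd : Odd (finrank ℚ K) := by rw [finrank_K]; decide
  let q : Fin 1 ≃ Fin (Units.rank K) := finCongr rank_K.symm
  set F : (𝓞 K)ˣ := Units.fundSystem K (q 0)
  have decomp : ∀ v : (𝓞 K)ˣ, ∃ (k : ℤ) (s : (𝓞 K)ˣ), (s = 1 ∨ s = -1) ∧ v = s * F ^ k :=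
    fun v => by
    obtain ⟨⟨t, f⟩, hv, -⟩ := Units.exist_unique_eq_mul_prod K v
    refine ⟨f (q 0), (t : (𝓞 K)ˣ), ?_, ?_⟩
    · rcases Units.torsion_eq_one_or_neg_one_of_odd_finrank hodd t with h | h <;> simp [h]
    · rw [hv, ← Equiv.prod_comp q, Fin.prod_univ_one]
  obtain ⟨k, s, hs, hk⟩ := decomp epsU
  obtain ⟨k', rfl⟩ : Odd k := Int.not_even_iff_odd.1 fun ⟨j, hj⟩ => by
    rcases hs with rfl | rfl
    · exact eps_ne_sq ((F ^ j : (𝓞 K)ˣ) : 𝓞 K) (by
        rw [← coe_epsU, hk, hj, zpow_add]; push_cast; ring)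
    · exact neg_eps_ne_sq ((F ^ j : (𝓞 K)ˣ) : 𝓞 K) (by
        rw [← coe_epsU, hk, hj, zpow_add]; push_cast; ring)
  obtain ⟨l, t, ht, hl⟩ := decomp u
  have hneg : Algebra.norm ℤ (-1 : 𝓞 K) = -1 := by
    rw [show (-1 : 𝓞 K) = elO (-1) 0 0 by simp [elO], norm_elO]; norm_num
  have hsq : ∀ g : (𝓞 K)ˣ, Algebra.norm ℤ ((g : 𝓞 K) ^ 2) = 1 := fun g => by
    rcases Int.isUnit_iff.1 (g.isUnit.map (Algebra.norm ℤ)) with e | e <;> simp [map_pow, e]
  have hsign : ∀ x g : (𝓞 K)ˣ, (x = 1 ∨ x = -1) → Algebra.norm ℤ ((x * g ^ 2 : (𝓞 K)ˣ) : 𝓞 K) = 1 →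
      x = 1 := fun x g hx h => by
    rcases hx with rfl | rfl
    · rfl
    rw [Units.val_mul, Units.val_pow_eq_pow_val, map_mul, hsq, mul_one, Units.val_neg,
      Units.val_one, hneg] at h
    exact absurd h (by norm_num)
  rcases Int.even_or_odd l with ⟨j, rfl⟩ | ⟨j, rfl⟩
  · refine ⟨F ^ j, Or.inl ?_⟩
    have e : u = t * (F ^ j) ^ 2 := by rw [hl, zpow_add, sq]
    rw [e] at hu ⊢
    rw [hsign t _ ht hu, one_mul]
  · refine ⟨F ^ (j - k'), Or.inr ?_⟩
    have e : u = t * s * (epsU * (F ^ (j - k')) ^ 2) := by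
      have hs2 : s * s = 1 := by rcases hs with rfl | rfl <;> simp
      rw [hk, show t * s * (s * F ^ (2 * k' + 1) * (F ^ (j - k')) ^ 2) =
          t * (s * s) * (F ^ (2 * k' + 1) * (F ^ (j - k')) ^ 2) by
        simp only [mul_assoc, mul_left_comm, mul_comm], hs2, mul_one, hl, ← zpow_natCast,
        ← zpow_mul, ← zpow_add]
      congr 2
      push_cast
      ring
    rw [e] at hu ⊢
    have hts : t * s = 1 ∨ t * s = -1 := by
      rcases ht with rfl | rfl <;> rcases hs with rfl | rfl <;> simp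
    rcases hts with h | h
    · rw [h, one_mul]
    · exfalso
      rw [h, Units.val_mul, Units.val_mul, Units.val_pow_eq_pow_val, map_mul, map_mul, hsq,
        mul_one, Units.val_neg, Units.val_one, hneg, coe_epsU, norm_elO] at hu
      norm_num at hu

end FA.GoodThree

end
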