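import Fermat.Agent.GoodThree.Field
import Fermat.Agent.GoodThree.Equations
import Fermat.Agent.IsogenyDegrees.DescentThirtySix
import Fermat.Agent.MordellCurve.CurveOneFortyFour
import Mathlib.RingTheory.PrincipalIdealDomain
import Mathlib.Tactic.FieldSimp

/-!
# The equation `c₆² = c₄³ ± 1728 · 3 ^ k` with the congruences of a minimal equation at two

The only solutions have `c₄ = 0` or `c₄³ = -12288000 Δ`.
-/

set_option autoImplicit false

noncomputable section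

open NumberField

namespace FA.GoodThree

/-- The rational points of `y² = x³ - n³` for `n ∈ {± 1, ± 3}`. -/
theorem cubic_points {x y n : ℚ} (hn : n = 1 ∨ n = -1 ∨ n = 3 ∨ n = -3)
    (h : y ^ 2 = x ^ 3 - n ^ 3) : y = 0 ∨ x = 0 ∨ n = -1 ∧ x = 2 := by
  by_cases hx : x = 0
  · exact Or.inr (Or.inl hx)
  rcases hn with rfl | rfl | rfl | rfl
  · obtain ⟨hU, -⟩ := FA.Curve144.rational_points (U := (x ^ 3 - 4) / x ^ 2)
      (V := y * (x ^ 3 + 8) / x ^ 3) (by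
        field_simp
        linear_combination (x ^ 3 + 8) ^ 2 * h)
    rw [div_eq_iff (pow_ne_zero 2 hx)] at hU
    rcases mul_eq_zero.1 (show (x - 1) * (x + 2) ^ 2 = 0 by linear_combination hU) with e | e
    · obtain rfl : x = 1 := by linarith
      exact Or.inl ((pow_eq_zero_iff two_ne_zero).1 (by rw [h]; norm_num))
    · obtain rfl : x = -2 := by linarith [(pow_eq_zero_iff two_ne_zero).1 e]
      nlinarith [sq_nonneg y]
  · have hU := FA.X0Composite.eq_zero_of_cubic_thirtySix (t := (x ^ 3 + 4) / x ^ 2 - 3)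
      (V := y * (x ^ 3 - 8) / x ^ 3) (by
        field_simp
        linear_combination (x ^ 3 - 8) ^ 2 * h)
    rw [sub_eq_zero, div_eq_iff (pow_ne_zero 2 hx)] at hU
    rcases mul_eq_zero.1 (show (x + 1) * (x - 2) ^ 2 = 0 by linear_combination hU) with e | e
    · obtain rfl : x = -1 := by linarith
      exact Or.inl ((pow_eq_zero_iff two_ne_zero).1 (by rw [h]; norm_num))
    · exact Or.inr (Or.inr ⟨rfl, by linarith [(pow_eq_zero_iff two_ne_zero).1 e]⟩)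
  · have ht := FA.X0Composite.eq_zero_of_cubic_thirtySix (t := x - 3) (V := y)
      (by linear_combination h)
    exact Or.inl ((pow_eq_zero_iff two_ne_zero).1 (by rw [h, sub_eq_zero.1 ht]; norm_num))
  · exact Or.inl (FA.Curve144.rational_points (U := x) (V := y) (by linear_combination h)).2

theorem three_pow_unique {x y : ℤ} {i j : ℕ} (hx : ¬ (3 : ℤ) ∣ x) (hy : ¬ (3 : ℤ) ∣ y)
    (h : 3 ^ i * x = 3 ^ j * y) : i = j := by
  have key : ∀ {x y : ℤ} {i j : ℕ}, ¬ (3 : ℤ) ∣ x → 3 ^ i * x = 3 ^ j * y → j ≤ i := by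
    intro x y i j hx h
    by_contra hlt
    obtain ⟨d, rfl⟩ : ∃ d, j = i + (d + 1) := ⟨j - i - 1, by omega⟩
    exact hx ⟨3 ^ d * y, mul_left_cancel₀ (pow_ne_zero i (three_ne_zero : (3 : ℤ) ≠ 0))
      (by rw [h]; ring)⟩
  exact le_antisymm (key hy h.symm) (key hx h)

/-- **Descent in `ℤ[θ]`.** -/
theorem exists_sq {A M μ R : ℤ} {a e : ℕ} (he : e = 1 ∨ e = 2) (hM : M = μ * 3 ^ a)
    (hco : IsCoprime A μ) (hR : R ≠ 0) (h : A ^ 3 - M ^ 3 * 3 ^ e = R ^ 2)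
    (h4 : ((4 : ℤ) ∣ A - 1 ∧ 4 ∣ M) ∨ ((4 : ℤ) ∣ A ∧ (4 ∣ M - 1 ∨ 4 ∣ M + 1))) :
    ∃ γ : 𝓞 K, (A : 𝓞 K) - M * thetaO ^ e = γ ^ 2 := by
  classical
  set α : 𝓞 K := (A : 𝓞 K) - M * thetaO ^ e with hα
  set β : 𝓞 K := (A : 𝓞 K) ^ 2 + A * (M * thetaO ^ e) + (M * thetaO ^ e) ^ 2 with hβ
  have hd3 : (thetaO ^ e) ^ 3 = (3 : 𝓞 K) ^ e := by
    rw [← pow_mul, mul_comm, pow_mul, thetaO_eq]
  have hαβ : α * β = (R : 𝓞 K) ^ 2 := by
    have := congrArg (Int.cast : ℤ → 𝓞 K) h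
    push_cast at this
    rw [hα, hβ]
    linear_combination this - (M : 𝓞 K) ^ 3 * hd3
  have hR' : (R : 𝓞 K) ^ 2 ≠ 0 := pow_ne_zero 2 (Int.cast_ne_zero.2 hR)
  have hα0 : α ≠ 0 := fun e0 => hR' (by rw [← hαβ, e0, zero_mul])
  have hN : Algebra.norm ℤ α = R ^ 2 := by
    rcases he with rfl | rfl
    · rw [show α = elO A (-M) 0 by simp [hα, elO]; ring, norm_elO, ← h]; ring
    · rw [show α = elO A 0 (-M) by simp [hα, elO]; ring, norm_elO, ← h]; ring
  obtain ⟨j, α₁, hα₁, hj⟩ := WfDvdMonoid.max_power_factor hα0 prime_thetaO.irreducible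
  -- the multiplicity of `θ` is even
  have h31 : ¬ (3 : ℤ) ∣ Algebra.norm ℤ α₁ := by
    obtain ⟨a', b', c', rfl⟩ := exists_elO α₁
    rw [norm_elO]
    intro hd
    obtain ⟨a'', rfl⟩ : (3 : ℤ) ∣ a' := Int.prime_three.dvd_of_dvd_pow (n := 3) (by
      obtain ⟨k, hk⟩ := hd
      exact ⟨k - b' ^ 3 - 3 * c' ^ 3 + 3 * a' * b' * c', by linear_combination hk⟩)
    refine hα₁ ⟨elO b' c' a'', ?_⟩
    simp only [elO]
    push_cast
    linear_combination -(a'' : 𝓞 K) * thetaO_eq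
  have hNθ : Algebra.norm ℤ thetaO = 3 := by
    rw [show thetaO = elO 0 1 0 by simp [elO], norm_elO]; norm_num
  obtain ⟨k, R₁, hR₁, hk⟩ := WfDvdMonoid.max_power_factor hR Int.prime_three.irreducible
  obtain rfl : j = 2 * k := three_pow_unique h31
    (fun hd => hR₁ (Int.prime_three.dvd_of_dvd_pow hd)) (y := R₁ ^ 2) (by
      rw [← hNθ, ← map_pow, ← map_mul, ← hj, hN, hk, hNθ]; ring)
  -- only `θ` divides both factors
  have hcop : IsCoprime α₁ (thetaO ^ (2 * k) * β) := by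
    refine isCoprime_of_prime_dvd (fun h0 => hα₁ (by rw [h0.1]; exact dvd_zero _))
      fun p hp h1 h2 => ?_
    have hpθ : ¬ p ∣ thetaO := fun hd =>
      hα₁ ((hp.associated_of_dvd prime_thetaO hd).symm.dvd.trans h1)
    have hp3 : ¬ p ∣ (3 : 𝓞 K) := fun hd => hpθ (hp.dvd_of_dvd_pow (thetaO_eq ▸ hd))
    have hpβ : p ∣ β := (hp.dvd_mul.1 h2).resolve_left fun hd => hpθ (hp.dvd_of_dvd_pow hd)
    have hpα : p ∣ α := hj ▸ dvd_mul_of_dvd_right h1 _
    have h3M : p ∣ 3 * ((M : 𝓞 K) ^ 2 * (thetaO ^ e) ^ 2) := by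
      have := dvd_sub hpβ (dvd_mul_of_dvd_left hpα ((A : 𝓞 K) + 2 * (M * thetaO ^ e)))
      rw [show β - α * ((A : 𝓞 K) + 2 * (M * thetaO ^ e)) =
        3 * ((M : 𝓞 K) ^ 2 * (thetaO ^ e) ^ 2) by rw [hα, hβ]; ring] at this
      exact this
    have hpM : p ∣ (M : 𝓞 K) := hp.dvd_of_dvd_pow (n := 2) <|
      (hp.dvd_mul.1 ((hp.dvd_mul.1 h3M).resolve_left hp3)).resolve_right fun hd =>
        hpθ (hp.dvd_of_dvd_pow (hp.dvd_of_dvd_pow hd))
    have hpA : p ∣ (A : 𝓞 K) := by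
      have := dvd_add hpα (dvd_mul_of_dvd_left hpM (thetaO ^ e))
      rwa [hα, sub_add_cancel] at this
    have hpμ : p ∣ (μ : 𝓞 K) := by
      rw [hM] at hpM
      push_cast at hpM
      exact (hp.dvd_mul.1 hpM).resolve_right fun hd => hp3 (hp.dvd_of_dvd_pow hd)
    exact hp.not_isUnit ((hco.map (Int.castRingHom (𝓞 K))).isUnit_of_dvd' hpA hpμ)
  obtain ⟨g, u, hu⟩ := exists_associated_pow_of_mul_eq_pow' hcop (c := (R : 𝓞 K)) (k := 2)
    (by rw [← hαβ, hj]; ring)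
  set γ : 𝓞 K := thetaO ^ k * g with hγ
  have hαu : α = u * γ ^ 2 := by rw [hj, ← hu, hγ]; ring
  have hu1 : Algebra.norm ℤ (u : 𝓞 K) = 1 := by
    rcases Int.isUnit_iff.1 (u.isUnit.map (Algebra.norm ℤ)) with e1 | e1
    · exact e1
    · rw [hαu, map_mul, map_pow, e1] at hN
      have : R ^ 2 > 0 := pow_two_pos_of_ne_zero hR
      nlinarith [sq_nonneg (Algebra.norm ℤ γ)]
  obtain ⟨η, rfl | rfl⟩ := unit_eq u hu1
  · exact ⟨η * γ, by rw [hαu, Units.val_pow_eq_pow_val]; ring⟩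
  -- `ε` times a square is wrong modulo `4`
  exfalso
  obtain ⟨x, y, z, hxyz⟩ := exists_elO ((η : 𝓞 K) * γ)
  have hsq : α = elO (-2) 0 1 * (elO x y z * elO x y z) := by
    rw [hαu, ← hxyz, Units.val_mul, Units.val_pow_eq_pow_val, coe_epsU]; ring
  rw [elO_mul, elO_mul] at hsq
  have key : ∀ x y z A M : ZMod 4,
      (A = 1 ∧ M = 0) ∨ (A = 0 ∧ (M = 1 ∨ M = -1)) →
      A = -2 * (x * x + 3 * (y * z + z * y)) + 3 * (0 * (x * z + y * y + z * x) +
        1 * (x * y + y * x + 3 * (z * z))) →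
      ¬ ((-M = -2 * (x * y + y * x + 3 * (z * z)) + 0 * (x * x + 3 * (y * z + z * y)) +
            3 * (1 * (x * z + y * y + z * x)) ∧
          0 = -2 * (x * z + y * y + z * x) + 0 * (x * y + y * x + 3 * (z * z)) +
            1 * (x * x + 3 * (y * z + z * y))) ∨
        (0 = -2 * (x * y + y * x + 3 * (z * z)) + 0 * (x * x + 3 * (y * z + z * y)) +
            3 * (1 * (x * z + y * y + z * x)) ∧
          -M = -2 * (x * z + y * y + z * x) + 0 * (x * y + y * x + 3 * (z * z)) +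
            1 * (x * x + 3 * (y * z + z * y)))) := by
    decide +kernel
  have h4' : ((A : ZMod 4) = 1 ∧ (M : ZMod 4) = 0) ∨
      ((A : ZMod 4) = 0 ∧ ((M : ZMod 4) = 1 ∨ (M : ZMod 4) = -1)) := by
    have c := fun (n : ℤ) (hd : (4 : ℤ) ∣ n) => (ZMod.intCast_zmod_eq_zero_iff_dvd n 4).2 hd
    rcases h4 with ⟨h1, h2⟩ | ⟨h1, h2 | h2⟩
    · have := c _ h1; push_cast at this
      exact Or.inl ⟨sub_eq_zero.1 this, c _ h2⟩
    · have := c _ h2; push_cast at this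
      exact Or.inr ⟨c _ h1, Or.inl (sub_eq_zero.1 this)⟩
    · have := c _ h2; push_cast at this
      exact Or.inr ⟨c _ h1, Or.inr (eq_neg_of_add_eq_zero_left this)⟩
  rcases he with rfl | rfl
  · rw [show α = elO A (-M) 0 by simp [hα, elO]; ring] at hsq
    obtain ⟨e0, e1, e2⟩ := elO_inj hsq
    have q0 := congrArg (Int.cast : ℤ → ZMod 4) e0
    have q1 := congrArg (Int.cast : ℤ → ZMod 4) e1
    have q2 := congrArg (Int.cast : ℤ → ZMod 4) e2
    push_cast at q0 q1 q2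
    exact key _ _ _ _ _ h4' q0 (Or.inl ⟨q1, q2⟩)
  · rw [show α = elO A 0 (-M) by simp [hα, elO]; ring] at hsq
    obtain ⟨e0, e1, e2⟩ := elO_inj hsq
    have q0 := congrArg (Int.cast : ℤ → ZMod 4) e0
    have q1 := congrArg (Int.cast : ℤ → ZMod 4) e1
    have q2 := congrArg (Int.cast : ℤ → ZMod 4) e2
    push_cast at q0 q1 q2
    exact key _ _ _ _ _ h4' q0 (Or.inr ⟨q1, q2⟩)

/-- The descent followed by the two systems. -/
theorem descent {A R s : ℤ} {a c e : ℕ} (hs : s = 1 ∨ s = -1) (hc : c = 1 ∨ c = 4)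
    (he : e = 1 ∨ e = 2) (hco : IsCoprime A (c : ℤ)) (hR : R ≠ 0)
    (h : A ^ 3 - (s * c * 3 ^ a) ^ 3 * 3 ^ e = R ^ 2)
    (h4 : ((4 : ℤ) ∣ A - 1 ∧ 4 ∣ s * c * 3 ^ a) ∨
      ((4 : ℤ) ∣ A ∧ (4 ∣ s * c * 3 ^ a - 1 ∨ 4 ∣ s * c * 3 ^ a + 1))) :
    A = 0 ∨ e = 2 ∧ s = -1 ∧ A = 40 * c * 3 ^ a := by
  obtain ⟨γ, hγ⟩ := exists_sq he rfl
    ((isCoprime_mul_unit_left_right (Int.isUnit_iff.2 hs) A (c : ℤ)).2 hco) hR h h4
  obtain ⟨u, v, w, rfl⟩ := exists_elO γ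
  rw [sq, elO_mul] at hγ
  have hs' : -s = 1 ∨ -s = -1 := by omega
  rcases he with rfl | rfl
  · rw [show ((A : 𝓞 K) - ((s * c * 3 ^ a : ℤ) : 𝓞 K) * thetaO ^ 1) =
      elO A (-(s * c * 3 ^ a)) 0 by simp [elO]; ring] at hγ
    obtain ⟨e0, e1, e2⟩ := elO_inj hγ
    have := system_one (u := u) (v := v) (w := w) (a := a) hs' hc (by linear_combination -e2)
      (by linear_combination -e1)
    exact Or.inl (by linear_combination e0 + this)
  · rw [show ((A : 𝓞 K) - ((s * c * 3 ^ a : ℤ) : 𝓞 K) * thetaO ^ 2) =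
      elO A 0 (-(s * c * 3 ^ a)) by simp [elO]; ring] at hγ
    obtain ⟨e0, e1, e2⟩ := elO_inj hγ
    rcases system_two (u := u) (v := v) (w := w) (a := a) hs' hc (by linear_combination -e1)
      (by linear_combination -e2) with h0 | ⟨h1, i, -, h0⟩
    · exact Or.inl (by linear_combination e0 + h0)
    · exact Or.inr ⟨rfl, by omega, by linear_combination e0 + h0⟩

/-- **The solutions of `c₆² = c₄³ ± 1728 · 3 ^ k`.** -/
theorem c4_cases {c4 c6 s : ℤ} {k : ℕ} (hs : s = 1 ∨ s = -1)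
    (h : c6 ^ 2 = c4 ^ 3 - 1728 * (s * 3 ^ k))
    (hodd : ¬ (2 : ℤ) ∣ c4 → (4 : ℤ) ∣ c4 - 1) (heven : (2 : ℤ) ∣ c4 → (16 : ℤ) ∣ c4) :
    c4 = 0 ∨ c4 ^ 3 = -12288000 * (s * 3 ^ k) := by
  have hodd3 : ∀ n : ℕ, ¬ (2 : ℤ) ∣ s * 3 ^ n := fun n hd => by
    rcases Int.prime_two.dvd_mul.1 hd with hd | hd
    · rcases hs with rfl | rfl <;> norm_num at hd
    · have := Int.prime_two.dvd_of_dvd_pow hd; norm_num at this
  have hc6 : c6 ≠ 0 := fun e => by
    rw [e] at h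
    obtain ⟨c', rfl⟩ : (16 : ℤ) ∣ c4 := heven (Int.prime_two.dvd_of_dvd_pow (n := 3)
      ⟨864 * (s * 3 ^ k), by linear_combination -h⟩)
    exact hodd3 (k + 3) ⟨32 * c' ^ 3, by rw [pow_add]; linarith⟩
  have hs3 : s ^ 3 = s := by rcases hs with rfl | rfl <;> norm_num
  obtain ⟨m, e, he, rfl⟩ : ∃ m e, e < 3 ∧ k = 3 * m + e :=
    ⟨k / 3, k % 3, Nat.mod_lt _ (by norm_num), by omega⟩
  rcases Nat.eq_zero_or_pos e with rfl | hepos
  · -- a point on `y² = x³ - n³`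
    left
    by_contra hc0
    obtain ⟨t, f, hf, htf⟩ : ∃ t f, f < 2 ∧ m + 1 = 2 * t + f :=
      ⟨(m + 1) / 2, (m + 1) % 2, Nat.mod_lt _ two_pos, by omega⟩
    have hr : ((2 : ℚ) * 3 ^ t) ≠ 0 := by positivity
    have hn : (s : ℚ) * 4 * 3 ^ (m + 1) = (2 * 3 ^ t) ^ 2 * (s * 3 ^ f) := by
      rw [htf, pow_add, pow_mul']; ring
    have hq : (c6 : ℚ) ^ 2 = (c4 : ℚ) ^ 3 - ((s : ℚ) * 4 * 3 ^ (m + 1)) ^ 3 := by
      have := congrArg (Int.cast : ℤ → ℚ) h
      push_cast at this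
      rw [this, mul_pow, mul_pow, show (s : ℚ) ^ 3 = s by exact_mod_cast hs3, ← pow_mul]
      ring
    have hpt := cubic_points (x := (c4 : ℚ) / (2 * 3 ^ t) ^ 2) (y := (c6 : ℚ) / (2 * 3 ^ t) ^ 3)
      (n := (s : ℚ) * 3 ^ f)
      (by interval_cases f <;> rcases hs with rfl | rfl <;> norm_num)
      (by
        rw [div_pow, div_pow, ← pow_mul, ← pow_mul]
        rw [eq_sub_iff_add_eq, div_add' _ _ _ (pow_ne_zero _ hr), div_left_inj' (pow_ne_zero _ hr)]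
        rw [hq, hn]; ring)
    rcases hpt with h0 | h0 | ⟨-, h0⟩
    · exact hc6 (by simpa [hr] using h0)
    · exact hc0 (by simpa [hr] using h0)
    · rw [div_eq_iff (pow_ne_zero 2 hr)] at h0
      have h8 : c4 = 8 * 3 ^ (2 * t) := by
        have : (c4 : ℚ) = ((8 * 3 ^ (2 * t) : ℤ) : ℚ) := by rw [h0, pow_mul']; push_cast; ring
        exact_mod_cast this
      obtain ⟨c', hc'⟩ := heven ⟨4 * 3 ^ (2 * t), by rw [h8]; ring⟩
      exact hodd3 (2 * t) ⟨s * c', mul_left_cancel₀ (show (8 : ℤ) ≠ 0 by norm_num)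
        (by rw [h8] at hc'; linear_combination s * hc')⟩
  · have he' : e = 1 ∨ e = 2 := by omega
    by_cases h2 : (2 : ℤ) ∣ c4
    · obtain ⟨c', rfl⟩ := heven h2
      obtain ⟨R, rfl⟩ : (8 : ℤ) ∣ c6 := by
        rw [← Int.pow_dvd_pow_iff (two_ne_zero : (2 : ℕ) ≠ 0)]
        exact ⟨64 * c' ^ 3 - 27 * (s * 3 ^ (3 * m + e)), by rw [h]; ring⟩
      have hR : R ≠ 0 := fun e0 => hc6 (by rw [e0, mul_zero])
      rcases descent (A := 4 * c') (a := m + 1) (c := 1) hs (Or.inl rfl) he'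
        (by rw [Nat.cast_one]; exact isCoprime_one_right) hR (by
          rw [Nat.cast_one, mul_one, mul_pow s, hs3]
          refine mul_left_cancel₀ (show (64 : ℤ) ≠ 0 by norm_num) ?_
          linear_combination -h) (Or.inr
          ⟨dvd_mul_right 4 c', by
            have := hodd3 (m + 1)
            rw [Nat.cast_one, mul_one]
            generalize s * 3 ^ (m + 1) = T at this ⊢
            omega⟩) with h0 | ⟨rfl, rfl, h0⟩
      · exact Or.inl (by linear_combination 4 * h0)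
      · right
        have : 16 * c' = 160 * 3 ^ (m + 1) := by push_cast at h0; linear_combination 4 * h0
        rw [this]; ring
    · have h4 := hodd h2
      rcases descent (A := c4) (a := m + 1) (c := 4) (e := e) hs (Or.inr rfl) he'
        (show IsCoprime c4 ((2 : ℤ) ^ 2) from
          ((Int.prime_two.coprime_iff_not_dvd.2 h2).symm).pow_right) hc6 (by
          rw [mul_pow, mul_pow, hs3, h]; push_cast; ring) (Or.inl
          ⟨h4, ⟨s * 3 ^ (m + 1), by push_cast; ring⟩⟩) with h0 | ⟨-, -, h0⟩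
      · exact Or.inl h0
      · exact absurd ⟨80 * 3 ^ (m + 1), by rw [h0]; push_cast; ring⟩ h2

end FA.GoodThree

end
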