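import Fermat.Agent.GoodThree.Main
import Fermat.Agent.Root.SummaryGoodOutsideThree
import Fermat.Agent.Twists.LocalFactors

/-!
# The eight equations with discriminant a power of three

An integral equation of discriminant `± 3 ^ k` has, up to the scale, the invariants `c₄`, `c₆` of
exactly one of eight explicit equations.
-/

set_option autoImplicit false
set_option linter.unusedSectionVars false
set_option linter.style.haveILetI false

noncomputable section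

open WeierstrassCurve

namespace FA.GoodThree

/-- The eight models: six with `j = 0`, then two with `j = -12288000`. -/
def threeModel : Fin 8 → WeierstrassCurve ℤ :=
  ![⟨0, 0, 1, 0, 0⟩, ⟨0, 0, 1, 0, -1⟩, ⟨0, 0, 1, 0, 2⟩, ⟨0, 0, 1, 0, -7⟩, ⟨0, 0, 1, 0, 20⟩,
    ⟨0, 0, 1, 0, -61⟩, ⟨0, 0, 1, -30, 63⟩, ⟨0, 0, 1, -270, -1708⟩]

/-- The invariants of the models. -/
theorem threeModel_invariants :
    (∀ i, (threeModel i).Δ = -3 ^ ![3, 5, 7, 9, 11, 13, 5, 11] i) ∧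
    (∀ i, (threeModel i).c₄ = ![0, 0, 0, 0, 0, 0, 1440, 12960] i) ∧
    ∀ i, (threeModel i).c₆ =
      8 * ![1, 1, 1, 1, 1, 1, 253, 253] i * (-3) ^ ![3, 4, 5, 6, 7, 8, 3, 6] i := by
  decide +kernel

theorem Δ_threeModel_ne_zero (i : Fin 8) : (threeModel i).Δ ≠ 0 := by
  rw [threeModel_invariants.1 i]
  exact neg_ne_zero.2 (pow_ne_zero _ three_ne_zero)

/-- An integer some power of which is a power of three. -/
theorem eq_three_pow_of_pow {x : ℤ} {n m : ℕ} (hn : n ≠ 0) (h : x ^ n = 3 ^ m) :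
    ∃ j, n * j = m ∧ (x = 3 ^ j ∨ x = -3 ^ j) := by
  have h' := congrArg Int.natAbs h
  rw [Int.natAbs_pow, Int.natAbs_pow] at h'
  change x.natAbs ^ n = 3 ^ m at h'
  obtain ⟨j, -, hj⟩ := (Nat.dvd_prime_pow Nat.prime_three).1
    (h' ▸ dvd_pow_self x.natAbs hn : x.natAbs ∣ 3 ^ m)
  refine ⟨j, Nat.pow_right_injective (le_refl 2 |>.trans (by norm_num : 2 ≤ 3))
    (by show 3 ^ (n * j) = 3 ^ m; rw [← h', hj, mul_comm, pow_mul]), ?_⟩
  rcases Int.natAbs_eq x with e | e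
  · exact Or.inl (by rw [e, hj]; push_cast; ring)
  · exact Or.inr (by rw [e, hj]; push_cast; ring)

/-- The sign of a power of three is read off modulo four. -/
theorem eq_neg_three_pow {x : ℤ} {j : ℕ} (hx : x = 3 ^ j ∨ x = -3 ^ j) (h4 : (4 : ℤ) ∣ x - 1) :
    x = (-3) ^ j := by
  have h : (4 : ℤ) ∣ (-3) ^ j - 1 := by
    have := sub_dvd_pow_sub_pow (-3 : ℤ) 1 j
    rw [one_pow] at this
    exact (dvd_trans (by norm_num) this)
  rcases neg_one_pow_eq_or ℤ j with e | e <;>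
    (rw [neg_pow, e] at h ⊢; omega)

/-- `c₆ / 8` is `0` or `1` modulo `4` when `c₄` is even. -/
theorem c6_parity (W : WeierstrassCurve ℤ) {T : ℤ} (h2 : (2 : ℤ) ∣ W.c₄) (hT : W.c₆ = 8 * T)
    (hodd : ¬ (2 : ℤ) ∣ T) : (4 : ℤ) ∣ T - 1 := by
  obtain ⟨m, hm⟩ : (2 : ℤ) ∣ W.a₁ := by
    refine Int.prime_two.dvd_of_dvd_pow (n := 4) ?_
    rw [show W.a₁ ^ 4 =
        W.c₄ - 2 * (4 * W.a₁ ^ 2 * W.a₂ + 8 * W.a₂ ^ 2 - 12 * W.b₄) by
      rw [WeierstrassCurve.c₄, WeierstrassCurve.b₂]; ring]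
    exact dvd_sub h2 (dvd_mul_right 2 _)
  have e : T = -8 * (m ^ 2 + W.a₂) ^ 3 + 36 * (m ^ 2 + W.a₂) * (W.a₄ + m * W.a₃) -
      27 * (W.a₃ ^ 2 + 4 * W.a₆) := mul_left_cancel₀ (show (8 : ℤ) ≠ 0 by norm_num) (by
    rw [← hT, WeierstrassCurve.c₆, WeierstrassCurve.b₂, WeierstrassCurve.b₄, WeierstrassCurve.b₆,
      hm]
    ring)
  rcases Int.even_or_odd' W.a₃ with ⟨r, hr | hr⟩ <;> rw [hr] at e
  · exact absurd ⟨-4 * (m ^ 2 + W.a₂) ^ 3 + 18 * (m ^ 2 + W.a₂) * (W.a₄ + m * (2 * r)) -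
      27 * (2 * r ^ 2 + 2 * W.a₆), by rw [e]; ring⟩ hodd
  · exact ⟨-2 * (m ^ 2 + W.a₂) ^ 3 + 9 * (m ^ 2 + W.a₂) * (W.a₄ + m * (2 * r + 1)) -
      27 * (r ^ 2 + r + W.a₆) - 7, by rw [e]; ring⟩

theorem not_two_dvd_three_pow (j : ℕ) : ¬ (2 : ℤ) ∣ (3 : ℤ) ^ j := fun h => by
  have := Int.prime_two.dvd_of_dvd_pow h
  norm_num at this

/-- **The pairs `(c₄, c₆)` of the equations of discriminant `± 3 ^ k`.** -/
theorem invariants_cases (W : WeierstrassCurve ℤ) {s : ℤ} {k : ℕ} (hs : s = 1 ∨ s = -1)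
    (hΔ : W.Δ = s * 3 ^ k) :
    (∃ l, 2 ≤ l ∧ W.c₄ = 0 ∧ W.c₆ = 8 * (-3) ^ l) ∨
      ∃ n, 1 ≤ n ∧ W.c₄ = 160 * 9 ^ n ∧ W.c₆ = 8 * 253 * (-27) ^ n := by
  obtain ⟨hodd, heven⟩ := c4_parity W
  have h : W.c₆ ^ 2 = W.c₄ ^ 3 - 1728 * (s * 3 ^ k) := by rw [← hΔ]; linarith [W.c_relation]
  rcases c4_cases hs h hodd heven with h4 | h4
  · left
    obtain ⟨T, hT⟩ : (8 : ℤ) ∣ W.c₆ := by
      rw [← Int.pow_dvd_pow_iff (two_ne_zero : (2 : ℕ) ≠ 0)]
      exact ⟨-27 * (s * 3 ^ k), by rw [h, h4]; ring⟩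
    have hT2 : T ^ 2 = -s * 3 ^ (k + 3) := by
      refine mul_left_cancel₀ (show (64 : ℤ) ≠ 0 by norm_num) ?_
      rw [hT, h4] at h
      linear_combination h
    obtain rfl : s = -1 := hs.resolve_left fun e => by
      rw [e] at hT2
      nlinarith [sq_nonneg T, pow_pos (show (0 : ℤ) < 3 by norm_num) (k + 3)]
    rw [neg_neg, one_mul] at hT2
    obtain ⟨l, hl, hTl⟩ := eq_three_pow_of_pow two_ne_zero hT2
    have h4T := c6_parity W (h4 ▸ dvd_zero 2) hT (by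
      rcases hTl with e | e <;> rw [e] <;> simpa using not_two_dvd_three_pow l)
    exact ⟨l, by omega, h4, by rw [hT, eq_neg_three_pow hTl h4T]⟩
  · right
    obtain ⟨T, hT⟩ : (8 : ℤ) ∣ W.c₆ := by
      rw [← Int.pow_dvd_pow_iff (two_ne_zero : (2 : ℕ) ≠ 0)]
      exact ⟨-192027 * (s * 3 ^ k), by rw [h, h4]; ring⟩
    have hT2 : T ^ 2 = -s * 3 ^ (k + 1) * 253 ^ 2 := by
      refine mul_left_cancel₀ (show (64 : ℤ) ≠ 0 by norm_num) ?_
      rw [hT, h4] at h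
      linear_combination h
    obtain rfl : s = -1 := hs.resolve_left fun e => by
      rw [e] at hT2
      nlinarith [sq_nonneg T, pow_pos (show (0 : ℤ) < 3 by norm_num) (k + 1)]
    rw [neg_neg, one_mul] at hT2
    obtain ⟨T', rfl⟩ : (253 : ℤ) ∣ T := by
      rw [← Int.pow_dvd_pow_iff (two_ne_zero : (2 : ℕ) ≠ 0)]
      exact Dvd.intro_left _ hT2.symm
    obtain ⟨l, hl, hTl⟩ := eq_three_pow_of_pow (x := T') (m := k + 1) two_ne_zero
      (mul_left_cancel₀ (show (253 : ℤ) ^ 2 ≠ 0 by norm_num) (by linear_combination hT2))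
    obtain ⟨y, hy⟩ : (160 : ℤ) ∣ W.c₄ := by
      rw [← Int.pow_dvd_pow_iff (three_ne_zero : (3 : ℕ) ≠ 0)]
      exact ⟨3 ^ (k + 1), by rw [h4]; ring⟩
    have hy3 : y ^ 3 = 3 ^ (k + 1) := by
      refine mul_left_cancel₀ (show (4096000 : ℤ) ≠ 0 by norm_num) ?_
      rw [hy] at h4
      linear_combination h4
    obtain ⟨j, hj, hyj⟩ := eq_three_pow_of_pow three_ne_zero hy3
    obtain ⟨n, rfl, rfl⟩ : ∃ n, j = 2 * n ∧ l = 3 * n := ⟨j / 2, by omega, by omega⟩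
    have hy9 : y = 9 ^ n := by
      rcases hyj with e | e
      · rw [e, pow_mul]; norm_num
      · rw [e, neg_pow] at hy3
        nlinarith [pow_pos (show (0 : ℤ) < 3 by norm_num) (k + 1),
          pow_pos (pow_pos (show (0 : ℤ) < 3 by norm_num) (2 * n)) 3]
    have h2T : ¬ (2 : ℤ) ∣ 253 * T' := fun hd => by
      have hd' := (Int.prime_two.dvd_mul.1 hd).resolve_left (by norm_num)
      rcases hTl with e | e <;> rw [e] at hd'
      · exact not_two_dvd_three_pow _ hd'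
      · exact not_two_dvd_three_pow _ (dvd_neg.1 hd')
    have h4T := c6_parity W ⟨80 * y, by rw [hy]; ring⟩ hT h2T
    refine ⟨n, by omega, by rw [hy, hy9], ?_⟩
    rw [hT, eq_neg_three_pow hTl (by omega), pow_mul]
    norm_num
    ring

/-- **Each such equation has the invariants of one of the eight models.** -/
theorem exists_threeModel (W : WeierstrassCurve ℤ) {s : ℤ} {k : ℕ} (hs : s = 1 ∨ s = -1)
    (hΔ : W.Δ = s * 3 ^ k) :
    ∃ i, (threeModel i).IsIntegralModelOf (W.map (Int.castRingHom ℚ)) := by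
  obtain ⟨-, hc4, hc6⟩ := threeModel_invariants
  rcases invariants_cases W hs hΔ with ⟨l, -, h4, h6⟩ | ⟨n, hn, h4, h6⟩
  · obtain ⟨q, r, hr, hl⟩ : ∃ q r, r < 6 ∧ l + 3 = 6 * q + r :=
      ⟨(l + 3) / 6, (l + 3) % 6, by omega, by omega⟩
    refine ⟨⟨r, by omega⟩, FA.Twists.isIntegralModelOf_of_invariants
      (w := 3 / 3 ^ q) (by positivity) ?_ ?_⟩
    · rw [hc4, map_c₄, h4, eq_intCast, Int.cast_zero, mul_zero]
      interval_cases r <;> rfl
    · rw [hc6, map_c₆, h6, eq_intCast]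
      have e : ((-3 : ℚ)) ^ l = (3 ^ q) ^ 6 * (-3) ^ r / (-3) ^ 3 := by
        rw [eq_div_iff (by norm_num), ← pow_add, hl, pow_add, pow_mul, ← pow_mul _ q 6,
          mul_comm q 6, pow_mul]
        norm_num
      push_cast
      rw [e]
      interval_cases r <;> (simp; field_simp)
  · obtain ⟨q, i, hi, rfl⟩ : ∃ q i, (i = 1 ∨ i = 2) ∧ n = 2 * q + i :=
      ⟨(n - 1) / 2, (n - 1) % 2 + 1, by omega, by omega⟩
    refine ⟨⟨5 + i, by omega⟩, FA.Twists.isIntegralModelOf_of_invariants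
      (w := 1 / 3 ^ q) (by positivity) ?_ ?_⟩
    · rw [hc4, map_c₄, h4, eq_intCast]
      push_cast
      rw [pow_add, pow_mul, show (9 : ℚ) ^ 2 = 3 ^ 4 by norm_num, ← pow_mul, mul_comm 4 q, pow_mul]
      rcases hi with rfl | rfl <;> (simp; field_simp; ring)
    · rw [hc6, map_c₆, h6, eq_intCast]
      push_cast
      rw [pow_add, pow_mul, show (-27 : ℚ) ^ 2 = 3 ^ 6 by norm_num, ← pow_mul, mul_comm 6 q,
        pow_mul]
      rcases hi with rfl | rfl <;> (simp; field_simp; ring)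

theorem padicValRat_c6 (i : Fin 8) :
    padicValRat 3 ((threeModel i).c₆ : ℚ) = (![3, 4, 5, 6, 7, 8, 3, 6] i : ℕ) := by
  obtain ⟨-, -, hc6⟩ := threeModel_invariants
  have hnd : ∀ j : Fin 8, ¬ (3 : ℤ) ∣ 8 * ![1, 1, 1, 1, 1, 1, 253, 253] j := by decide +kernel
  rw [hc6, padicValRat.of_int, padicValInt.mul (fun e => hnd i (by rw [e]; exact dvd_zero 3))
    (pow_ne_zero _ (by norm_num)), padicValInt.eq_zero_of_not_dvd (by exact_mod_cast hnd i),
    zero_add]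
  unfold padicValInt
  rw [Int.natAbs_pow, show Int.natAbs (-3) = 3 from rfl, padicValNat.prime_pow]

/-- **The models are pairwise non-isomorphic.** -/
theorem eq_of_isomorphic_three {i j : Fin 8} {C : VariableChange ℚ}
    (h : C • (threeModel i).map (Int.castRingHom ℚ) = (threeModel j).map (Int.castRingHom ℚ)) :
    i = j := by
  have : Fact (Nat.Prime 3) := ⟨Nat.prime_three⟩
  have e4 := congrArg WeierstrassCurve.c₄ h
  have e6 := congrArg WeierstrassCurve.c₆ h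
  rw [variableChange_c₄, map_c₄, map_c₄, eq_intCast, eq_intCast] at e4
  rw [variableChange_c₆, map_c₆, map_c₆, eq_intCast, eq_intCast] at e6
  set w : ℚ := ((C.u⁻¹ : ℚˣ) : ℚ)
  have hw : w ≠ 0 := Units.ne_zero _
  have hne : ∀ i, ((threeModel i).c₆ : ℚ) ≠ 0 := fun i e => by
    have := padicValRat_c6 i
    rw [e, padicValRat.zero] at this
    fin_cases i <;> simp at this
  have hval := congrArg (padicValRat 3) e6
  rw [padicValRat.mul (pow_ne_zero _ hw) (hne i), padicValRat.pow, padicValRat_c6,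
    padicValRat_c6] at hval
  have hzero : (threeModel i).c₄ = 0 ↔ (threeModel j).c₄ = 0 := by
    rw [← @Int.cast_eq_zero ℚ, ← @Int.cast_eq_zero ℚ, ← e4]
    simp [hw]
  have key : ∀ a b : Fin 8,
      (![3, 4, 5, 6, 7, 8, 3, 6] a : ℕ) % 6 = ![3, 4, 5, 6, 7, 8, 3, 6] b % 6 →
      ((threeModel a).c₄ = 0 ↔ (threeModel b).c₄ = 0) → a = b := by decide +kernel
  refine key i j ?_ hzero
  generalize (![3, 4, 5, 6, 7, 8, 3, 6] i : ℕ) = a at hval ⊢
  generalize (![3, 4, 5, 6, 7, 8, 3, 6] j : ℕ) = b at hval ⊢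
  push_cast at hval
  omega

end FA.GoodThree

end
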